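import Fermat.Agent.S05.Defs

set_option autoImplicit false

/-!
WP-B of the S05 development: for a curve `Y² = X³ + a₂ X² + a₄ X` with `a₂, a₄` in a valuation
subring `A` of the field `K`, the set `NearZero A` (the point at infinity and the affine points
with `x ∉ A`) is a subgroup of the group of points, the coordinate `z = x / y` is additive on it
up to terms of third order, and it has no `n`-torsion for `n` a unit of `A`.
-/

namespace Fermat.Agent.S05.KernelOfReduction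

open WeierstrassCurve WeierstrassCurve.Affine

variable {K : Type*} [Field K] (A : ValuationSubring K)

/-- The third point on a line `Y = ℓ X + c` through two points of `Y² = X³ + a X² + b X`,
via the Vieta relations: the sum of the `z = x / y` coordinates is small. -/
theorem chord_core {a b x₁ y₁ x₂ y₂ x₃ ℓ c : K} {t : A.ValueGroup}
    (ha : a ∈ A) (hb : b ∈ A) (ht : t < 1)
    (e1 : x₁ + x₂ + x₃ = ℓ ^ 2 - a)
    (e2 : x₁ * x₂ + x₁ * x₃ + x₂ * x₃ = b - 2 * ℓ * c)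
    (e3 : x₁ * x₂ * x₃ = c ^ 2)
    (l1 : y₁ = ℓ * x₁ + c) (l2 : y₂ = ℓ * x₂ + c)
    (hy1 : y₁ ≠ 0) (hy2 : y₂ ≠ 0) (hc : c ≠ 0)
    (hnu : A.valuation (1 / c) ≤ t ^ 3) (hlc : A.valuation (ℓ / c) ≤ t ^ 2)
    (hz1 : A.valuation (x₁ / y₁) ≤ t) (hz2 : A.valuation (x₂ / y₂) ≤ t) :
    ℓ * x₃ + c ≠ 0 ∧
      A.valuation (x₃ / (ℓ * x₃ + c) + x₁ / y₁ + x₂ / y₂) ≤ t ^ 3 ∧
      A.valuation (1 / (ℓ * x₃ + c)) ≤ t ^ 3 := by
  set v := A.valuation with hv
  have hva : v a ≤ 1 := (A.valuation_le_one_iff a).2 ha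
  have hvb : v b ≤ 1 := (A.valuation_le_one_iff b).2 hb
  have ht2 : t ^ 2 < 1 := pow_lt_one₀ zero_le ht (by norm_num)
  have ht3 : t ^ 3 < 1 := pow_lt_one₀ zero_le ht (by norm_num)
  -- the unit Q / c^2 = 1 - a (ℓ/c) + b (ℓ/c)^2
  set lam := ℓ / c with hlam
  have hlam1 : v lam < 1 := lt_of_le_of_lt hlc ht2
  have hu : v (1 + (-(a * lam) + b * lam ^ 2)) = 1 := by
    apply Valuation.map_one_add_of_lt
    refine lt_of_le_of_lt (v.map_add _ _) (max_lt ?_ ?_)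
    · rw [Valuation.map_neg, map_mul]
      calc v a * v lam ≤ 1 * v lam := by gcongr
        _ < 1 := by simpa using hlam1
    · rw [map_mul, map_pow]
      calc v b * v lam ^ 2 ≤ 1 * v lam ^ 2 := by gcongr
        _ < 1 := by simpa using pow_lt_one₀ zero_le hlam1 (by norm_num)
  have hQ : c ^ 2 - a * ℓ * c + b * ℓ ^ 2 = c ^ 2 * (1 + (-(a * lam) + b * lam ^ 2)) := by
    rw [hlam]; field_simp; ring
  have hQ0 : c ^ 2 - a * ℓ * c + b * ℓ ^ 2 ≠ 0 := by
    rw [hQ]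
    refine mul_ne_zero (pow_ne_zero _ hc) ?_
    intro h0
    rw [h0, map_zero] at hu
    exact zero_ne_one hu
  -- product of the three y's
  have hprod : y₁ * y₂ * (ℓ * x₃ + c) = c * (c ^ 2 - a * ℓ * c + b * ℓ ^ 2) := by
    rw [l1, l2]
    linear_combination (ℓ * c ^ 2) * e1 + (ℓ ^ 2 * c) * e2 + ℓ ^ 3 * e3
  have hy3 : ℓ * x₃ + c ≠ 0 := by
    intro h0
    rw [h0, mul_zero] at hprod
    exact mul_ne_zero hc hQ0 hprod.symm
  have hS : v (x₃ / (ℓ * x₃ + c) + x₁ / y₁ + x₂ / y₂) ≤ t ^ 3 := by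
    -- the sum of z's
    have hsum : x₃ / (ℓ * x₃ + c) + x₁ / y₁ + x₂ / y₂ =
        (1 / c) * (2 * b * lam - a) / (1 + (-(a * lam) + b * lam ^ 2)) := by
      have hu0 : (1 + (-(a * lam) + b * lam ^ 2)) ≠ 0 := by
        intro h0; rw [h0, map_zero] at hu; exact zero_ne_one hu
      rw [div_add_div _ _ hy3 hy1, div_add_div _ _ (mul_ne_zero hy3 hy1) hy2, div_eq_div_iff
        (mul_ne_zero (mul_ne_zero hy3 hy1) hy2) hu0]
      have hprod' : (ℓ * x₃ + c) * y₁ * y₂ = c ^ 3 * (1 + (-(a * lam) + b * lam ^ 2)) := by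
        calc (ℓ * x₃ + c) * y₁ * y₂ = y₁ * y₂ * (ℓ * x₃ + c) := by ring
          _ = c * (c ^ 2 - a * ℓ * c + b * ℓ ^ 2) := hprod
          _ = c * (c ^ 2 * (1 + (-(a * lam) + b * lam ^ 2))) := by rw [hQ]
          _ = c ^ 3 * (1 + (-(a * lam) + b * lam ^ 2)) := by ring
      rw [hprod']
      have hnum : (x₃ * y₁ + (ℓ * x₃ + c) * x₁) * y₂ + (ℓ * x₃ + c) * y₁ * x₂ =
          c * (2 * b * ℓ - a * c) := by
        rw [l1, l2]
        linear_combination (c ^ 2) * e1 + (2 * ℓ * c) * e2 + (3 * ℓ ^ 2) * e3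
      rw [hnum, hlam]
      field_simp
    rw [hsum, map_div₀, hu, div_one, map_mul]
    calc v (1 / c) * v (2 * b * lam - a) ≤ t ^ 3 * 1 := by
          gcongr
          refine le_trans (v.map_sub _ _) (max_le ?_ hva)
          rw [map_mul, map_mul]
          have h2 : v 2 ≤ 1 := by
            have h11 : (2 : K) = 1 + 1 := by norm_num
            rw [h11]
            calc v (1 + 1) ≤ max (v 1) (v 1) := v.map_add _ _
              _ = 1 := by simp
          calc v 2 * v b * v lam ≤ 1 * 1 * 1 := by gcongr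
            _ = 1 := by simp
      _ = t ^ 3 := by simp
  refine ⟨hy3, hS, ?_⟩
  have ht3t : t ^ 3 ≤ t := by
    calc t ^ 3 = t * t ^ 2 := pow_succ' t 2
      _ ≤ t * 1 := by gcongr
      _ = t := mul_one t
  have hz3 : v (x₃ / (ℓ * x₃ + c)) ≤ t := by
    have : x₃ / (ℓ * x₃ + c) = (x₃ / (ℓ * x₃ + c) + x₁ / y₁ + x₂ / y₂) - x₁ / y₁ - x₂ / y₂ := by
      ring
    rw [this]
    refine le_trans (v.map_sub _ _) (max_le ?_ hz2)
    exact le_trans (v.map_sub _ _) (max_le (hS.trans ht3t) hz1)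
  have hw : 1 / (ℓ * x₃ + c) = 1 / c - lam * (x₃ / (ℓ * x₃ + c)) := by
    rw [hlam]; field_simp; ring
  rw [hw]
  refine le_trans (v.map_sub _ _) (max_le hnu ?_)
  rw [map_mul]
  calc v lam * v (x₃ / (ℓ * x₃ + c)) ≤ t ^ 2 * t := by gcongr
    _ = t ^ 3 := (pow_succ t 2).symm

theorem one_lt_of_not_mem {x : K} (hx : x ∉ A) : 1 < A.valuation x := by
  rw [← not_le, A.valuation_le_one_iff]; exact hx

/-- Basic valuation facts for an affine point of `Y² = X³ + a X² + b X` with `x ∉ A`. -/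
theorem point_facts {a b x y : K} (ha : a ∈ A) (hb : b ∈ A)
    (h : y ^ 2 = x ^ 3 + a * x ^ 2 + b * x) (hx : x ∉ A) :
    A.valuation y ^ 2 = A.valuation x ^ 3 ∧ x ≠ 0 ∧ y ≠ 0 ∧
      A.valuation (x / y) ^ 2 * A.valuation x = 1 ∧ A.valuation (x / y) < 1 ∧
      A.valuation (1 / y) = A.valuation (x / y) ^ 3 := by
  set v := A.valuation with hv
  have hva : v a ≤ 1 := (A.valuation_le_one_iff a).2 ha
  have hvb : v b ≤ 1 := (A.valuation_le_one_iff b).2 hb
  have h1 : 1 < v x := one_lt_of_not_mem A hx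
  have hx0 : x ≠ 0 := by rintro rfl; simp at h1
  have hvx0 : v x ≠ 0 := (v.ne_zero_iff).2 hx0
  have h12 : v x < v x ^ 2 := by
    calc v x = v x ^ 1 := (pow_one _).symm
      _ < v x ^ 2 := pow_lt_pow_right₀ h1 (by norm_num)
  have h23 : v x ^ 2 < v x ^ 3 := pow_lt_pow_right₀ h1 (by norm_num)
  have hy2 : v y ^ 2 = v x ^ 3 := by
    rw [← map_pow, h, add_assoc, ← map_pow]
    apply Valuation.map_add_eq_of_lt_left
    refine lt_of_le_of_lt (v.map_add _ _) (max_lt ?_ ?_)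
    · rw [map_mul, map_pow, map_pow]
      calc v a * v x ^ 2 ≤ 1 * v x ^ 2 := by gcongr
        _ = v x ^ 2 := one_mul _
        _ < v x ^ 3 := h23
    · rw [map_mul, map_pow]
      calc v b * v x ≤ 1 * v x := by gcongr
        _ = v x := one_mul _
        _ < v x ^ 3 := h12.trans h23
  have hy0 : y ≠ 0 := by
    rintro rfl
    rw [map_zero, zero_pow (by norm_num)] at hy2
    exact pow_ne_zero 3 hvx0 hy2.symm
  have hvy0 : v y ≠ 0 := (v.ne_zero_iff).2 hy0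
  have hz2 : v (x / y) ^ 2 * v x = 1 := by
    rw [map_div₀, div_pow, hy2, div_mul_eq_mul_div, div_eq_one_iff_eq (pow_ne_zero 3 hvx0)]
    exact (pow_succ (v x) 2).symm
  have hz1 : v (x / y) < 1 := by
    by_contra hcon
    rw [not_lt] at hcon
    have : 1 < v (x / y) ^ 2 * v x := by
      calc 1 < v x := h1
        _ = 1 * v x := (one_mul _).symm
        _ ≤ v (x / y) ^ 2 * v x := by
          gcongr
          exact one_le_pow₀ hcon
    rw [hz2] at this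
    exact lt_irrefl _ this
  refine ⟨hy2, hx0, hy0, hz2, hz1, ?_⟩
  rw [map_div₀, map_div₀, map_one, div_pow, ← hy2, pow_succ (v y) 2, div_mul_eq_div_div,
    div_self (pow_ne_zero 2 hvy0)]


/-- Chart form of the secant estimate: two points `(z₁, w₁) ≠ (z₂, w₂)` of
`w = z³ + a z² w + b z w²` with small coordinates have distinct `z` and the slope
`(w₂ - w₁) / (z₂ - z₁)` is small. -/
theorem secant_chart {a b z₁ w₁ z₂ w₂ : K} {t : A.ValueGroup}
    (ha : a ∈ A) (hb : b ∈ A) (ht : t < 1)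
    (E1 : w₁ = z₁ ^ 3 + a * z₁ ^ 2 * w₁ + b * z₁ * w₁ ^ 2)
    (E2 : w₂ = z₂ ^ 3 + a * z₂ ^ 2 * w₂ + b * z₂ * w₂ ^ 2)
    (hz1 : A.valuation z₁ ≤ t) (hz2 : A.valuation z₂ ≤ t)
    (hw1 : A.valuation w₁ ≤ t ^ 3) (hw2 : A.valuation w₂ ≤ t ^ 3)
    (hne : z₁ = z₂ → w₁ ≠ w₂) :
    z₁ ≠ z₂ ∧ A.valuation ((w₂ - w₁) / (z₂ - z₁)) ≤ t ^ 2 ∧
      A.valuation (w₁ - z₁ * ((w₂ - w₁) / (z₂ - z₁))) ≤ t ^ 3 := by
  set v := A.valuation with hv
  have hva : v a ≤ 1 := (A.valuation_le_one_iff a).2 ha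
  have hvb : v b ≤ 1 := (A.valuation_le_one_iff b).2 hb
  have ht0 : (0 : A.ValueGroup) ≤ t := zero_le
  have ht2 : t ^ 2 < 1 := pow_lt_one₀ zero_le ht (by norm_num)
  have ht3 : t ^ 3 < 1 := pow_lt_one₀ zero_le ht (by norm_num)
  have ht32 : t ^ 3 ≤ t ^ 2 := pow_le_pow_of_le_one zero_le ht.le (by norm_num)
  have ht21 : t ^ 2 ≤ t := by
    calc t ^ 2 = t * t := pow_two t
      _ ≤ t * 1 := by gcongr
      _ = t := mul_one t
  have hw1' : v w₁ ≤ t := hw1.trans (ht32.trans ht21)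
  have hw2' : v w₂ ≤ t := hw2.trans (ht32.trans ht21)
  -- the key identity
  have key : (w₂ - w₁) * (1 + (-(a * z₁ ^ 2) - b * z₁ * (w₁ + w₂))) =
      (z₂ - z₁) * (z₂ ^ 2 + z₁ * z₂ + z₁ ^ 2 + a * (z₁ + z₂) * w₂ + b * w₂ ^ 2) := by
    linear_combination E2 - E1
  have hD : v (1 + (-(a * z₁ ^ 2) - b * z₁ * (w₁ + w₂))) = 1 := by
    apply Valuation.map_one_add_of_lt
    refine lt_of_le_of_lt (v.map_sub _ _) (max_lt ?_ ?_)
    · rw [Valuation.map_neg, map_mul, map_pow]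
      calc v a * v z₁ ^ 2 ≤ 1 * t ^ 2 := by gcongr
        _ = t ^ 2 := one_mul _
        _ < 1 := ht2
    · rw [map_mul, map_mul]
      have : v (w₁ + w₂) ≤ t := le_trans (v.map_add _ _) (max_le hw1' hw2')
      calc v b * v z₁ * v (w₁ + w₂) ≤ 1 * t * t := by gcongr
        _ = t ^ 2 := by rw [one_mul, pow_two]
        _ < 1 := ht2
  have hD0 : (1 + (-(a * z₁ ^ 2) - b * z₁ * (w₁ + w₂))) ≠ 0 := by
    intro h0; rw [h0, map_zero] at hD; exact zero_ne_one hD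
  have hN : v (z₂ ^ 2 + z₁ * z₂ + z₁ ^ 2 + a * (z₁ + z₂) * w₂ + b * w₂ ^ 2) ≤ t ^ 2 := by
    refine le_trans (v.map_add _ _) (max_le ?_ ?_)
    · refine le_trans (v.map_add _ _) (max_le ?_ ?_)
      · refine le_trans (v.map_add _ _) (max_le ?_ ?_)
        · refine le_trans (v.map_add _ _) (max_le ?_ ?_)
          · rw [map_pow]; gcongr
          · rw [map_mul, pow_two]; gcongr
        · rw [map_pow]; gcongr
      · rw [map_mul, map_mul]
        have : v (z₁ + z₂) ≤ t := le_trans (v.map_add _ _) (max_le hz1 hz2)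
        calc v a * v (z₁ + z₂) * v w₂ ≤ 1 * t * t := by gcongr
          _ = t ^ 2 := by rw [one_mul, pow_two]
    · rw [map_mul, map_pow]
      calc v b * v w₂ ^ 2 ≤ 1 * t ^ 2 := by gcongr
        _ = t ^ 2 := one_mul _
  have hzne : z₁ ≠ z₂ := by
    intro h
    have : (w₂ - w₁) * (1 + (-(a * z₁ ^ 2) - b * z₁ * (w₁ + w₂))) = 0 := by
      rw [key, h, sub_self, zero_mul]
    rcases mul_eq_zero.1 this with h1 | h1
    · exact hne h (sub_eq_zero.1 h1).symm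
    · exact hD0 h1
  have hzne' : z₂ - z₁ ≠ 0 := sub_ne_zero.2 (Ne.symm hzne)
  have hlam : (w₂ - w₁) / (z₂ - z₁) =
      (z₂ ^ 2 + z₁ * z₂ + z₁ ^ 2 + a * (z₁ + z₂) * w₂ + b * w₂ ^ 2) /
        (1 + (-(a * z₁ ^ 2) - b * z₁ * (w₁ + w₂))) := by
    rw [div_eq_div_iff hzne' hD0, key]; ring
  have hl : v ((w₂ - w₁) / (z₂ - z₁)) ≤ t ^ 2 := by
    rw [hlam, map_div₀, hD, div_one]; exact hN
  refine ⟨hzne, hl, ?_⟩
  refine le_trans (v.map_sub _ _) (max_le hw1 ?_)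
  rw [map_mul]
  calc v z₁ * v ((w₂ - w₁) / (z₂ - z₁)) ≤ t * t ^ 2 := by gcongr
    _ = t ^ 3 := (pow_succ' t 2).symm



/-- Secant case: bounds on `1 / c` and `ℓ / c`. -/
theorem secant_bounds {a b x₁ y₁ x₂ y₂ : K} {t : A.ValueGroup}
    (ha : a ∈ A) (hb : b ∈ A) (ht : t < 1)
    (h1 : y₁ ^ 2 = x₁ ^ 3 + a * x₁ ^ 2 + b * x₁) (h2 : y₂ ^ 2 = x₂ ^ 3 + a * x₂ ^ 2 + b * x₂)
    (hx1 : x₁ ∉ A) (hx2 : x₂ ∉ A)
    (hz1 : A.valuation (x₁ / y₁) ≤ t) (hz2 : A.valuation (x₂ / y₂) ≤ t) (hx : x₁ ≠ x₂) :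
    y₁ - (y₁ - y₂) / (x₁ - x₂) * x₁ ≠ 0 ∧
      A.valuation (1 / (y₁ - (y₁ - y₂) / (x₁ - x₂) * x₁)) ≤ t ^ 3 ∧
      A.valuation ((y₁ - y₂) / (x₁ - x₂) / (y₁ - (y₁ - y₂) / (x₁ - x₂) * x₁)) ≤ t ^ 2 := by
  set v := A.valuation with hv
  obtain ⟨-, hx10, hy10, -, -, hw1⟩ := point_facts A ha hb h1 hx1
  obtain ⟨-, hx20, hy20, -, -, hw2⟩ := point_facts A ha hb h2 hx2
  have hw1' : v (1 / y₁) ≤ t ^ 3 := by rw [hw1]; gcongr
  have hw2' : v (1 / y₂) ≤ t ^ 3 := by rw [hw2]; gcongr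
  have E1 : 1 / y₁ = (x₁ / y₁) ^ 3 + a * (x₁ / y₁) ^ 2 * (1 / y₁) + b * (x₁ / y₁) * (1 / y₁) ^ 2 := by
    field_simp; linear_combination h1
  have E2 : 1 / y₂ = (x₂ / y₂) ^ 3 + a * (x₂ / y₂) ^ 2 * (1 / y₂) + b * (x₂ / y₂) * (1 / y₂) ^ 2 := by
    field_simp; linear_combination h2
  have hne : x₁ / y₁ = x₂ / y₂ → 1 / y₁ ≠ 1 / y₂ := by
    intro hz hw
    have hy : y₁ = y₂ := by
      have := congrArg (fun u => 1 / u) hw
      simpa using this
    rw [hy] at hz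
    exact hx ((div_left_inj' hy20).1 hz)
  obtain ⟨hzne, hl, hn⟩ := secant_chart A ha hb ht E1 E2 hz1 hz2 hw1' hw2' hne
  have hx12 : x₁ - x₂ ≠ 0 := sub_ne_zero.2 hx
  have hdet : x₂ * y₁ - x₁ * y₂ ≠ 0 := by
    intro h0
    apply hzne
    rw [div_eq_div_iff hy10 hy20]
    linear_combination -h0
  have hc : y₁ - (y₁ - y₂) / (x₁ - x₂) * x₁ = (x₁ * y₂ - x₂ * y₁) / (x₁ - x₂) := by
    field_simp; ring
  have hc0 : y₁ - (y₁ - y₂) / (x₁ - x₂) * x₁ ≠ 0 := by
    rw [hc]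
    refine div_ne_zero ?_ hx12
    intro h0; apply hdet; linear_combination -h0
  have hzz : x₂ / y₂ - x₁ / y₁ ≠ 0 := sub_ne_zero.2 (Ne.symm hzne)
  refine ⟨hc0, ?_, ?_⟩
  · have : 1 / (y₁ - (y₁ - y₂) / (x₁ - x₂) * x₁) =
        1 / y₁ - x₁ / y₁ * ((1 / y₂ - 1 / y₁) / (x₂ / y₂ - x₁ / y₁)) := by
      rw [hc]
      have hdet' : x₁ * y₂ - x₂ * y₁ ≠ 0 := by
        intro h0; apply hdet; linear_combination -h0
      field_simp
      ring
    rw [this]; exact hn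
  · have : (y₁ - y₂) / (x₁ - x₂) / (y₁ - (y₁ - y₂) / (x₁ - x₂) * x₁) =
        -((1 / y₂ - 1 / y₁) / (x₂ / y₂ - x₁ / y₁)) := by
      have e1 : x₂ / y₂ - x₁ / y₁ = (x₂ * y₁ - x₁ * y₂) / (y₁ * y₂) := by field_simp
      have e2 : 1 / y₂ - 1 / y₁ = (y₁ - y₂) / (y₁ * y₂) := by field_simp
      rw [hc, e1, e2, div_div_div_cancel_right₀ hx12,
        div_div_div_cancel_right₀ (mul_ne_zero hy10 hy20), ← div_neg, neg_sub]
    rw [this, Valuation.map_neg]; exact hl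


theorem val_two_le_one : A.valuation (2 : K) ≤ 1 := by
  have h11 : (2 : K) = 1 + 1 := by norm_num
  rw [h11]
  calc A.valuation (1 + 1) ≤ max (A.valuation 1) (A.valuation 1) := A.valuation.map_add _ _
    _ = 1 := by simp

theorem val_three_le_one : A.valuation (3 : K) ≤ 1 := by
  have h11 : (3 : K) = 2 + 1 := by norm_num
  rw [h11]
  calc A.valuation (2 + 1) ≤ max (A.valuation 2) (A.valuation 1) := A.valuation.map_add _ _
    _ ≤ 1 := max_le (val_two_le_one A) (by simp)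

/-- Tangent case: bounds on `1 / c` and `ℓ / c`. -/
theorem tangent_bounds {a b x y : K} {t : A.ValueGroup}
    (ha : a ∈ A) (hb : b ∈ A)
    (h : y ^ 2 = x ^ 3 + a * x ^ 2 + b * x) (hx : x ∉ A)
    (hz : A.valuation (x / y) ≤ t) (h2 : (2 : K) ≠ 0) :
    y - (3 * x ^ 2 + 2 * a * x + b) / (2 * y) * x ≠ 0 ∧
      A.valuation (1 / (y - (3 * x ^ 2 + 2 * a * x + b) / (2 * y) * x)) ≤ t ^ 3 ∧
      A.valuation ((3 * x ^ 2 + 2 * a * x + b) / (2 * y) /
        (y - (3 * x ^ 2 + 2 * a * x + b) / (2 * y) * x)) ≤ t ^ 2 := by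
  set v := A.valuation with hv
  have hva : v a ≤ 1 := (A.valuation_le_one_iff a).2 ha
  have hvb : v b ≤ 1 := (A.valuation_le_one_iff b).2 hb
  obtain ⟨hy2, hx0, hy0, hzx, -, hw⟩ := point_facts A ha hb h hx
  have h1 : 1 < v x := one_lt_of_not_mem A hx
  have hvx0 : v x ≠ 0 := (v.ne_zero_iff).2 hx0
  have hvy0 : v y ≠ 0 := (v.ne_zero_iff).2 hy0
  have h1x2 : 1 < v x ^ 2 := one_lt_pow₀ h1 (by norm_num)
  have hbx : v (b - x ^ 2) = v x ^ 2 := by
    rw [sub_eq_add_neg, ← map_pow, ← Valuation.map_neg v (x ^ 2)]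
    apply Valuation.map_add_eq_of_lt_right
    rw [Valuation.map_neg, map_pow]
    exact lt_of_le_of_lt hvb h1x2
  have hbx0 : b - x ^ 2 ≠ 0 := by
    intro h0; rw [h0, map_zero] at hbx; exact pow_ne_zero 2 hvx0 hbx.symm
  have hc : y - (3 * x ^ 2 + 2 * a * x + b) / (2 * y) * x = x * (b - x ^ 2) / (2 * y) := by
    field_simp; linear_combination 2 * h
  have hc0 : y - (3 * x ^ 2 + 2 * a * x + b) / (2 * y) * x ≠ 0 := by
    rw [hc]; exact div_ne_zero (mul_ne_zero hx0 hbx0) (mul_ne_zero h2 hy0)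
  refine ⟨hc0, ?_, ?_⟩
  · have e : 1 / (y - (3 * x ^ 2 + 2 * a * x + b) / (2 * y) * x) =
        2 * (y / (x * (b - x ^ 2))) := by
      rw [hc]; field_simp
    have e' : v (y / (x * (b - x ^ 2))) = v (1 / y) := by
      rw [map_div₀, map_mul, hbx, ← pow_succ', ← hy2, map_div₀, map_one, pow_two,
        div_mul_eq_div_div, div_self hvy0]
    rw [e, map_mul, e', hw]
    calc v 2 * v (x / y) ^ 3 ≤ 1 * t ^ 3 :=
          mul_le_mul' (val_two_le_one A) (pow_le_pow_left₀ zero_le hz 3)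
      _ = t ^ 3 := one_mul _
  · have : (3 * x ^ 2 + 2 * a * x + b) / (2 * y) / (y - (3 * x ^ 2 + 2 * a * x + b) / (2 * y) * x)
        = (3 * x ^ 2 + 2 * a * x + b) / (x * (b - x ^ 2)) := by
      rw [hc, div_div_div_cancel_right₀ (mul_ne_zero h2 hy0)]
    rw [this, map_div₀, map_mul, hbx]
    have hnum : v (3 * x ^ 2 + 2 * a * x + b) ≤ v x ^ 2 := by
      refine le_trans (v.map_add _ _) (max_le ?_ (hvb.trans h1x2.le))
      refine le_trans (v.map_add _ _) (max_le ?_ ?_)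
      · rw [map_mul, map_pow]
        calc v 3 * v x ^ 2 ≤ 1 * v x ^ 2 := by gcongr; exact val_three_le_one A
          _ = v x ^ 2 := one_mul _
      · rw [map_mul, map_mul]
        calc v 2 * v a * v x ≤ 1 * 1 * v x := by gcongr; exact val_two_le_one A
          _ = v x ^ 1 := by rw [one_mul, one_mul, pow_one]
          _ ≤ v x ^ 2 := pow_le_pow_right₀ h1.le (by norm_num)
    calc v (3 * x ^ 2 + 2 * a * x + b) / (v x * v x ^ 2) ≤ v x ^ 2 / (v x * v x ^ 2) := by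
          gcongr
          exact zero_le
      _ = v (x / y) ^ 2 := by
          rw [div_mul_eq_div_div_swap, div_self (pow_ne_zero 2 hvx0), eq_comm, eq_div_iff hvx0]
          exact hzx
      _ ≤ t ^ 2 := pow_le_pow_left₀ zero_le hz 2


section PointLevel

variable {W : Affine K}

/-- The `z`-coordinate `x / y` of a point (`0` at infinity). -/
def zc : W.Point → K
  | .zero => 0
  | .some x y _ => x / y

@[simp] theorem zc_zero : zc (0 : W.Point) = 0 := rfl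

@[simp] theorem zc_some {x y : K} (h : W.Nonsingular x y) : zc (Point.some x y h) = x / y := rfl

theorem equation_twoModel (hW : IsTwoModel W) {x y : K} (h : W.Equation x y) :
    y ^ 2 = x ^ 3 + W.a₂ * x ^ 2 + W.a₄ * x := by
  have := (equation_iff x y).1 h
  rw [hW.a₁, hW.a₃, hW.a₆] at this
  linear_combination this

theorem negY_twoModel (hW : IsTwoModel W) (x y : K) : W.negY x y = -y := by
  simp [negY, hW.a₁, hW.a₃]

variable [DecidableEq K]

/-- Vieta relations for the three intersection points of a chord/tangent with the curve. -/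
theorem vieta {x₁ x₂ y₁ y₂ : K} (h₁ : W.Equation x₁ y₁) (h₂ : W.Equation x₂ y₂)
    (hxy : ¬(x₁ = x₂ ∧ y₁ = W.negY x₂ y₂)) :
    (-(W.slope x₁ x₂ y₁ y₂) ^ 2 - W.a₁ * (W.slope x₁ x₂ y₁ y₂) + W.a₂ =
      -(x₁ + x₂ + W.addX x₁ x₂ (W.slope x₁ x₂ y₁ y₂))) ∧
    (2 * x₁ * (W.slope x₁ x₂ y₁ y₂) ^ 2 + (W.a₁ * x₁ - 2 * y₁ - W.a₃) * (W.slope x₁ x₂ y₁ y₂)
        + (-W.a₁ * y₁ + W.a₄) =
      x₁ * x₂ + x₁ * W.addX x₁ x₂ (W.slope x₁ x₂ y₁ y₂)
        + x₂ * W.addX x₁ x₂ (W.slope x₁ x₂ y₁ y₂)) ∧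
    (-x₁ ^ 2 * (W.slope x₁ x₂ y₁ y₂) ^ 2 + (2 * x₁ * y₁ + W.a₃ * x₁) * (W.slope x₁ x₂ y₁ y₂)
        - (y₁ ^ 2 + W.a₃ * y₁ - W.a₆) =
      -(x₁ * x₂ * W.addX x₁ x₂ (W.slope x₁ x₂ y₁ y₂))) := by
  have h := addPolynomial_slope h₁ h₂ hxy
  rw [addPolynomial_eq, neg_inj, Cubic.prod_X_sub_C_eq, Cubic.toPoly_injective] at h
  simp only [Cubic.mk.injEq] at h
  exact ⟨h.2.1, h.2.2.1, h.2.2.2⟩

/-- Core estimate for two affine points in general position. -/
theorem add_estimate_some (hW : IsTwoModel W) (ha : W.a₂ ∈ A) (hb : W.a₄ ∈ A)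
    {t : A.ValueGroup} (ht : t < 1) {x₁ y₁ x₂ y₂ : K}
    (h₁ : W.Equation x₁ y₁) (h₂ : W.Equation x₂ y₂)
    (hx1 : x₁ ∉ A) (hx2 : x₂ ∉ A)
    (hz1 : A.valuation (x₁ / y₁) ≤ t) (hz2 : A.valuation (x₂ / y₂) ≤ t)
    (hxy : ¬(x₁ = x₂ ∧ y₁ = W.negY x₂ y₂)) :
    W.addX x₁ x₂ (W.slope x₁ x₂ y₁ y₂) ∉ A ∧
      A.valuation (W.addX x₁ x₂ (W.slope x₁ x₂ y₁ y₂) / W.addY x₁ x₂ y₁ (W.slope x₁ x₂ y₁ y₂)
        - x₁ / y₁ - x₂ / y₂) ≤ t ^ 3 := by
  have e₁ := equation_twoModel hW h₁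
  have e₂ := equation_twoModel hW h₂
  obtain ⟨-, hx10, hy10, -, -, -⟩ := point_facts A ha hb e₁ hx1
  obtain ⟨-, hx20, hy20, -, -, -⟩ := point_facts A ha hb e₂ hx2
  obtain ⟨v1, v2, v3⟩ := vieta h₁ h₂ hxy
  have h3 := equation_twoModel hW (equation_negAdd h₁ h₂ hxy)
  set ℓ := W.slope x₁ x₂ y₁ y₂ with hℓ
  set x₃ := W.addX x₁ x₂ ℓ with hx₃
  rw [hW.a₁] at v1
  rw [hW.a₁, hW.a₃] at v2
  rw [hW.a₃, hW.a₆] at v3
  -- the line
  have l2 : y₂ = ℓ * x₂ + (y₁ - ℓ * x₁) ∧ (y₁ - ℓ * x₁ ≠ 0 ∧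
      A.valuation (1 / (y₁ - ℓ * x₁)) ≤ t ^ 3 ∧ A.valuation (ℓ / (y₁ - ℓ * x₁)) ≤ t ^ 2) := by
    by_cases hx : x₁ = x₂
    · have hy : y₁ ≠ W.negY x₂ y₂ := fun h => hxy ⟨hx, h⟩
      have hyy : y₁ = y₂ := Y_eq_of_Y_ne h₁ h₂ hx hy
      subst hx; subst hyy
      have hs : ℓ = (3 * x₁ ^ 2 + 2 * W.a₂ * x₁ + W.a₄) / (2 * y₁) := by
        rw [hℓ, slope_of_Y_ne rfl hy, negY_twoModel hW, hW.a₁]
        congr 1
        · ring
        · ring
      have h2 : (2 : K) ≠ 0 := by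
        intro h0
        apply hy
        rw [negY_twoModel hW]
        linear_combination y₁ * h0
      refine ⟨by ring, ?_⟩
      have := tangent_bounds A ha hb e₁ hx1 hz1 h2
      rw [← hs] at this
      obtain ⟨c0, c1, c2⟩ := this
      refine ⟨?_, ?_, c2⟩
      · intro h0; apply c0; linear_combination h0
      · have : y₁ - ℓ * x₁ = y₁ - ℓ * x₁ := rfl
        convert c1 using 2
    · have hs : ℓ = (y₁ - y₂) / (x₁ - x₂) := by rw [hℓ, slope_of_X_ne hx]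
      have hx12 : x₁ - x₂ ≠ 0 := sub_ne_zero.2 hx
      refine ⟨?_, ?_⟩
      · rw [hs]; field_simp; ring
      · have := secant_bounds A ha hb ht e₁ e₂ hx1 hx2 hz1 hz2 hx
        rw [← hs] at this
        obtain ⟨c0, c1, c2⟩ := this
        refine ⟨?_, ?_, c2⟩
        · intro h0; apply c0; linear_combination h0
        · convert c1 using 2
  obtain ⟨l2, hc0, hnu, hlc⟩ := l2
  have core := chord_core A (x₁ := x₁) (y₁ := y₁) (x₂ := x₂) (y₂ := y₂) (x₃ := x₃) (ℓ := ℓ)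
    (c := y₁ - ℓ * x₁) ha hb ht (by linear_combination v1) (by linear_combination -v2)
    (by linear_combination v3) (by ring) l2 hy10 hy20 hc0 hnu hlc hz1 hz2
  obtain ⟨hy3, hS, hw3⟩ := core
  have hnegAdd : W.negAddY x₁ x₂ y₁ ℓ = ℓ * x₃ + (y₁ - ℓ * x₁) := by
    simp only [negAddY]; ring
  have haddY : W.addY x₁ x₂ y₁ ℓ = -(ℓ * x₃ + (y₁ - ℓ * x₁)) := by
    rw [addY, negY_twoModel hW, hnegAdd]
  rw [hnegAdd] at h3
  refine ⟨?_, ?_⟩
  · -- x₃ ∉ A
    intro hx3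
    have ht3 : t ^ 3 < 1 := pow_lt_one₀ zero_le ht (by norm_num)
    have hy3A : (ℓ * x₃ + (y₁ - ℓ * x₁)) ^ 2 ∈ A := by
      rw [h3]
      exact A.add_mem _ _ (A.add_mem _ _ (A.pow_mem hx3 3) (A.mul_mem _ _ ha (A.pow_mem hx3 2)))
        (A.mul_mem _ _ hb hx3)
    have h1 : A.valuation (ℓ * x₃ + (y₁ - ℓ * x₁)) ≤ 1 := by
      have := (A.valuation_le_one_iff _).2 hy3A
      rw [map_pow] at this
      exact (pow_le_one_iff_of_nonneg zero_le (by norm_num)).1 this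
    have h2 : 1 < A.valuation (ℓ * x₃ + (y₁ - ℓ * x₁)) := by
      have := lt_of_le_of_lt hw3 ht3
      rw [map_div₀, map_one, div_lt_iff₀ (by
        exact lt_of_le_of_ne zero_le (Ne.symm ((A.valuation.ne_zero_iff).2 hy3))), one_mul] at this
      exact this
    exact absurd h1 (not_le.2 h2)
  · rw [haddY]
    have : x₃ / -(ℓ * x₃ + (y₁ - ℓ * x₁)) - x₁ / y₁ - x₂ / y₂ =
        -(x₃ / (ℓ * x₃ + (y₁ - ℓ * x₁)) + x₁ / y₁ + x₂ / y₂) := by
      rw [div_neg]; ring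
    rw [this, Valuation.map_neg]
    exact hS


omit [DecidableEq K] in
theorem val_zc_lt_one (hW : IsTwoModel W) (ha : W.a₂ ∈ A) (hb : W.a₄ ∈ A) {P : W.Point}
    (hP : NearZero A P) : A.valuation (zc P) < 1 := by
  cases P with
  | zero => simp [← Point.zero_def]
  | some x y h =>
    have e := equation_twoModel hW h.1
    obtain ⟨-, -, -, -, hz, -⟩ := point_facts A ha hb e hP
    exact hz

omit [DecidableEq K] in
theorem zc_eq_zero_iff (hW : IsTwoModel W) (ha : W.a₂ ∈ A) (hb : W.a₄ ∈ A) {P : W.Point}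
    (hP : NearZero A P) : zc P = 0 ↔ P = 0 := by
  cases P with
  | zero => simp [← Point.zero_def]
  | some x y h =>
    have e := equation_twoModel hW h.1
    obtain ⟨-, hx0, hy0, -, -, -⟩ := point_facts A ha hb e hP
    simp [Point.some_ne_zero, hx0, hy0]

omit [DecidableEq K] in
theorem nearZero_neg {P : W.Point} (hP : NearZero A P) : NearZero A (-P) := by
  cases P with
  | zero => exact hP
  | some x y h => exact hP

theorem zc_neg (hW : IsTwoModel W) (P : W.Point) : zc (-P) = -zc P := by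
  cases P with
  | zero => simp [← Point.zero_def]
  | some x y h => rw [Point.neg_some, zc_some, zc_some, negY_twoModel hW, div_neg]

/-- The main estimate: on the kernel of reduction, `z` is additive up to third order terms. -/
theorem add_estimate (hW : IsTwoModel W) (ha : W.a₂ ∈ A) (hb : W.a₄ ∈ A)
    {t : A.ValueGroup} (ht : t < 1) {P Q : W.Point}
    (hP : NearZero A P) (hQ : NearZero A Q)
    (hzP : A.valuation (zc P) ≤ t) (hzQ : A.valuation (zc Q) ≤ t) :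
    NearZero A (P + Q) ∧ A.valuation (zc (P + Q) - zc P - zc Q) ≤ t ^ 3 := by
  cases P with
  | zero =>
    rw [← Point.zero_def, zero_add]
    refine ⟨hQ, ?_⟩
    simp
  | some x₁ y₁ h₁ =>
    cases Q with
    | zero =>
      rw [← Point.zero_def, add_zero]
      refine ⟨hP, ?_⟩
      simp
    | some x₂ y₂ h₂ =>
      by_cases hxy : x₁ = x₂ ∧ y₁ = W.negY x₂ y₂
      · rw [Point.add_of_Y_eq hxy.1 hxy.2]
        refine ⟨trivial, ?_⟩
        rw [zc_zero, zc_some, zc_some, hxy.1, hxy.2, negY_twoModel hW]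
        have : (0 : K) - x₂ / -y₂ - x₂ / y₂ = 0 := by rw [div_neg]; ring
        rw [this, map_zero]
        exact zero_le
      · rw [Point.add_some hxy]
        exact add_estimate_some A hW ha hb ht h₁.1 h₂.1 hP hQ hzP hzQ hxy

theorem nearZero_add (hW : IsTwoModel W) (ha : W.a₂ ∈ A) (hb : W.a₄ ∈ A) {P Q : W.Point}
    (hP : NearZero A P) (hQ : NearZero A Q) : NearZero A (P + Q) := by
  have h1 := val_zc_lt_one A hW ha hb hP
  have h2 := val_zc_lt_one A hW ha hb hQ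
  exact (add_estimate A hW ha hb (max_lt h1 h2) hP hQ (le_max_left _ _) (le_max_right _ _)).1

/-- The kernel of reduction as an additive subgroup. -/
def nearZeroSubgroup (hW : IsTwoModel W) (ha : W.a₂ ∈ A) (hb : W.a₄ ∈ A) :
    AddSubgroup W.Point where
  carrier := {P | NearZero A P}
  add_mem' := fun hP hQ => nearZero_add A hW ha hb hP hQ
  zero_mem' := trivial
  neg_mem' := fun hP => nearZero_neg A hP

@[simp] theorem mem_nearZeroSubgroup (hW : IsTwoModel W) (ha : W.a₂ ∈ A) (hb : W.a₄ ∈ A)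
    {P : W.Point} : P ∈ nearZeroSubgroup A hW ha hb ↔ NearZero A P := Iff.rfl

theorem nsmul_estimate (hW : IsTwoModel W) (ha : W.a₂ ∈ A) (hb : W.a₄ ∈ A) {P : W.Point}
    (hP : NearZero A P) (n : ℕ) :
    NearZero A (n • P) ∧
      A.valuation (zc (n • P) - (n : K) * zc P) ≤ A.valuation (zc P) ^ 3 := by
  set t := A.valuation (zc P) with ht
  have ht1 : t < 1 := val_zc_lt_one A hW ha hb hP
  have ht3t : t ^ 3 ≤ t := by
    calc t ^ 3 = t * t ^ 2 := pow_succ' t 2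
      _ ≤ t * 1 := by gcongr; exact (pow_lt_one₀ zero_le ht1 (by norm_num)).le
      _ = t := mul_one t
  have hnat : ∀ m : ℕ, A.valuation (m : K) ≤ 1 := fun m =>
    (A.valuation_le_one_iff _).2 (_root_.natCast_mem A m)
  induction n with
  | zero =>
    simp only [zero_smul, Nat.cast_zero, zero_mul, sub_zero, zc_zero, map_zero]
    exact ⟨trivial, zero_le⟩
  | succ n ih =>
    obtain ⟨ih1, ih2⟩ := ih
    have hzn : A.valuation (zc (n • P)) ≤ t := by
      have : zc (n • P) = (zc (n • P) - (n : K) * zc P) + (n : K) * zc P := by ring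
      rw [this]
      refine le_trans (A.valuation.map_add _ _) (max_le (ih2.trans ht3t) ?_)
      rw [map_mul]
      calc A.valuation (n : K) * A.valuation (zc P) ≤ 1 * t := by gcongr; exact hnat n
        _ = t := one_mul t
    obtain ⟨e1, e2⟩ := add_estimate A hW ha hb ht1 ih1 hP hzn le_rfl
    rw [succ_nsmul]
    refine ⟨e1, ?_⟩
    have : zc (n • P + P) - ((n + 1 : ℕ) : K) * zc P =
        (zc (n • P + P) - zc (n • P) - zc P) + (zc (n • P) - (n : K) * zc P) := by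
      push_cast; ring
    rw [this]
    exact le_trans (A.valuation.map_add _ _) (max_le e2 ih2)

/-- The kernel of reduction has no `n`-torsion when `n` is a unit of `A`. -/
theorem eq_zero_of_nsmul_eq_zero (hW : IsTwoModel W) (ha : W.a₂ ∈ A) (hb : W.a₄ ∈ A)
    {P : W.Point} (hP : NearZero A P) (n : ℕ) (hn : A.valuation (n : K) = 1)
    (h : n • P = 0) : P = 0 := by
  by_contra hP0
  have hz0 : zc P ≠ 0 := fun h0 => hP0 ((zc_eq_zero_iff A hW ha hb hP).1 h0)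
  have ht0 : A.valuation (zc P) ≠ 0 := (A.valuation.ne_zero_iff).2 hz0
  have ht1 : A.valuation (zc P) < 1 := val_zc_lt_one A hW ha hb hP
  obtain ⟨-, e⟩ := nsmul_estimate A hW ha hb hP n
  rw [h, zc_zero, zero_sub, Valuation.map_neg, map_mul, hn, one_mul] at e
  -- t ≤ t^3 < t
  have hlt : A.valuation (zc P) ^ 3 < A.valuation (zc P) := by
    calc A.valuation (zc P) ^ 3 = A.valuation (zc P) * A.valuation (zc P) ^ 2 := pow_succ' _ 2
      _ < A.valuation (zc P) * 1 := by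
          apply mul_lt_mul_of_pos_left (pow_lt_one₀ zero_le ht1 (by norm_num))
          exact lt_of_le_of_ne zero_le (Ne.symm ht0)
      _ = A.valuation (zc P) := mul_one _
  exact absurd e (not_le.2 hlt)

end PointLevel

end Fermat.Agent.S05.KernelOfReduction

namespace Fermat.Agent.S05

open WeierstrassCurve WeierstrassCurve.Affine

variable {K : Type*} [Field K] [DecidableEq K]

omit [DecidableEq K] in
/-- The kernel of reduction is stable under negation. -/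
theorem nearZero_neg {W : Affine K} (A : ValuationSubring K) {P : W.Point}
    (hP : NearZero A P) : NearZero A (-P) :=
  KernelOfReduction.nearZero_neg A hP

/-- The kernel of reduction is stable under addition. -/
theorem nearZero_add {W : Affine K} (hW : IsTwoModel W) (A : ValuationSubring K)
    (ha : W.a₂ ∈ A) (hb : W.a₄ ∈ A) {P Q : W.Point}
    (hP : NearZero A P) (hQ : NearZero A Q) : NearZero A (P + Q) :=
  KernelOfReduction.nearZero_add A hW ha hb hP hQ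

/-- The kernel of reduction has no `n`-torsion when `n` is a unit of `A`. -/
theorem eq_zero_of_nearZero_of_nsmul_eq_zero {W : Affine K} (hW : IsTwoModel W)
    (A : ValuationSubring K) (ha : W.a₂ ∈ A) (hb : W.a₄ ∈ A) {n : ℕ}
    (hn : A.valuation (n : K) = 1) {P : W.Point} (hP : NearZero A P) (hnP : n • P = 0) :
    P = 0 :=
  KernelOfReduction.eq_zero_of_nsmul_eq_zero A hW ha hb hP n hn hnP

end Fermat.Agent.S05
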