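import Mathlib
import Fermat.Prelude.Def_FLTPrelim_FreyPackage

set_option autoImplicit false

/-!
Arithmetic glue for the S05 development: integers inside a valuation subring lying over a
prime `q`, and the three reduction cases of the Frey curve at an odd prime `q`.
-/

namespace Fermat.Agent.S05

variable {K : Type*} [Field K]

theorem intCast_mem (A : ValuationSubring K) (n : ℤ) : (n : K) ∈ A :=
  _root_.intCast_mem A n

theorem natCast_mem (A : ValuationSubring K) (n : ℕ) : (n : K) ∈ A :=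
  _root_.natCast_mem A n

theorem valuation_intCast_le_one (A : ValuationSubring K) (n : ℤ) :
    A.valuation (n : K) ≤ 1 :=
  (A.valuation_le_one_iff _).mpr (intCast_mem A n)

theorem valuation_intCast_lt_one {A : ValuationSubring K} {q : ℕ}
    (hA : (q : K) ∈ A.nonunits) {n : ℤ} (hn : (q : ℤ) ∣ n) :
    A.valuation (n : K) < 1 := by
  obtain ⟨m, rfl⟩ := hn
  have hq : A.valuation (q : K) < 1 := (ValuationSubring.mem_nonunits_iff A).mp hA
  have hm : A.valuation (m : K) ≤ 1 := valuation_intCast_le_one A m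
  push_cast
  rw [map_mul]
  calc A.valuation (q : K) * A.valuation (m : K) ≤ A.valuation (q : K) * 1 :=
        mul_le_mul' le_rfl hm
    _ = A.valuation (q : K) := mul_one _
    _ < 1 := hq

theorem valuation_intCast_eq_one {A : ValuationSubring K} {q : ℕ} (hq : q.Prime)
    (hA : (q : K) ∈ A.nonunits) {n : ℤ} (hn : ¬ (q : ℤ) ∣ n) :
    A.valuation (n : K) = 1 := by
  have hcop : IsCoprime n (q : ℤ) := by
    have hqp : Prime (q : ℤ) := Nat.prime_iff_prime_int.mp hq
    exact (hqp.coprime_iff_not_dvd.mpr hn).symm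
  obtain ⟨u, v, huv⟩ := hcop
  have hK : (u : K) * (n : K) + (v : K) * (q : K) = 1 := by
    have := congrArg (fun z : ℤ => (z : K)) huv
    push_cast at this
    exact this
  have hle : A.valuation (n : K) ≤ 1 := valuation_intCast_le_one A n
  refine le_antisymm hle ?_
  by_contra hlt
  rw [not_le] at hlt
  have h1 : A.valuation ((u : K) * (n : K)) < 1 := by
    rw [map_mul]
    calc A.valuation (u : K) * A.valuation (n : K) ≤ 1 * A.valuation (n : K) :=
          mul_le_mul' (valuation_intCast_le_one A u) le_rfl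
      _ = A.valuation (n : K) := one_mul _
      _ < 1 := hlt
  have h2 : A.valuation ((v : K) * (q : K)) < 1 := by
    rw [map_mul]
    calc A.valuation (v : K) * A.valuation (q : K) ≤ 1 * A.valuation (q : K) :=
          mul_le_mul' (valuation_intCast_le_one A v) le_rfl
      _ = A.valuation (q : K) := one_mul _
      _ < 1 := (ValuationSubring.mem_nonunits_iff A).mp hA
  have h3 : A.valuation ((u : K) * (n : K) + (v : K) * (q : K)) < 1 :=
    lt_of_le_of_lt (A.valuation.map_add _ _) (max_lt h1 h2)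
  rw [hK, map_one] at h3
  exact lt_irrefl _ h3


/-! ### The three reduction cases of the Frey curve `Y² = X (X - a^p) (X + b^p)` at a prime `q` -/

section Frey

variable (P : FreyPackage) {q : ℕ}

private theorem not_dvd_of_gcd_eq_one {x y : ℤ} (hxy : gcd x y = 1) (hq : q.Prime)
    (hx : (q : ℤ) ∣ x) : ¬ (q : ℤ) ∣ y := by
  intro hy
  have h1 : (q : ℤ) ∣ gcd x y := dvd_gcd hx hy
  rw [hxy] at h1
  exact (Nat.prime_iff_prime_int.mp hq).not_dvd_one h1

/-- Multiplicative case with the node at `(0,0)`: if `q ∣ a b` then `q ∤ b^p - a^p`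
(the coefficient `a₂` of the model `Y² = X³ + (b^p - a^p) X² - a^p b^p X` is a `q`-unit). -/
theorem frey_case_ab (hq : q.Prime) (hqab : (q : ℤ) ∣ P.a * P.b) :
    ¬ (q : ℤ) ∣ P.b ^ P.p - P.a ^ P.p := by
  have hqp : Prime (q : ℤ) := Nat.prime_iff_prime_int.mp hq
  intro hdiv
  rcases hqp.dvd_or_dvd hqab with ha | hb
  · have hb : (q : ℤ) ∣ P.b ^ P.p := by
      have := dvd_add hdiv (dvd_pow ha P.hp0)
      simpa using this
    exact not_dvd_of_gcd_eq_one P.hgcdab hq ha (hqp.dvd_of_dvd_pow hb)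
  · have ha : (q : ℤ) ∣ P.a ^ P.p := by
      have := dvd_sub (dvd_pow hb P.hp0) hdiv
      simpa using this
    have hgcd : gcd P.b P.a = 1 := by rw [gcd_comm]; exact P.hgcdab
    exact not_dvd_of_gcd_eq_one hgcd hq hb (hqp.dvd_of_dvd_pow ha)

/-- Multiplicative case with the node at `(a^p, 0)`: if `q ∣ c` then, after the translation
`X ↦ X + a^p`, the model is `Y² = X³ + (a^p + c^p) X² + a^p c^p X` and `a^p + c^p`, `a` are
`q`-units. -/
theorem frey_case_c (hq : q.Prime) (hqc : (q : ℤ) ∣ P.c) :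
    ¬ (q : ℤ) ∣ P.a ^ P.p + P.c ^ P.p ∧ ¬ (q : ℤ) ∣ P.a := by
  have hqp : Prime (q : ℤ) := Nat.prime_iff_prime_int.mp hq
  have hgcd : gcd P.c P.a = 1 := by rw [gcd_comm]; exact P.hgcdac
  have hna : ¬ (q : ℤ) ∣ P.a := not_dvd_of_gcd_eq_one hgcd hq hqc
  refine ⟨fun hdiv => hna ?_, hna⟩
  have ha : (q : ℤ) ∣ P.a ^ P.p := by
    have := dvd_sub hdiv (dvd_pow hqc P.hp0)
    simpa using this
  exact hqp.dvd_of_dvd_pow ha

/-- In the case `q ∣ c` also `q ∤ b`. -/
theorem frey_case_c_b (hq : q.Prime) (hqc : (q : ℤ) ∣ P.c) : ¬ (q : ℤ) ∣ P.b := by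
  have hgcd : gcd P.c P.b = 1 := by rw [gcd_comm]; exact P.hgcdbc
  exact not_dvd_of_gcd_eq_one hgcd hq hqc

/-- Good reduction case: if `q ∤ a b c` then `a^p b^p` and the discriminant factor
`(b^p - a^p)² + 4 a^p b^p = c^(2p)` are `q`-units. -/
theorem frey_case_good (hq : q.Prime) (h : ¬ (q : ℤ) ∣ P.a * P.b * P.c) :
    ¬ (q : ℤ) ∣ P.a ^ P.p * P.b ^ P.p ∧
      ¬ (q : ℤ) ∣ (P.b ^ P.p - P.a ^ P.p) ^ 2 + 4 * (P.a ^ P.p * P.b ^ P.p) := by
  have hqp : Prime (q : ℤ) := Nat.prime_iff_prime_int.mp hq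
  have hna : ¬ (q : ℤ) ∣ P.a := fun ha => h (dvd_mul_of_dvd_left (dvd_mul_of_dvd_left ha _) _)
  have hnb : ¬ (q : ℤ) ∣ P.b := fun hb => h (dvd_mul_of_dvd_left (dvd_mul_of_dvd_right hb _) _)
  have hnc : ¬ (q : ℤ) ∣ P.c := fun hc => h (dvd_mul_of_dvd_right hc _)
  refine ⟨fun hdiv => ?_, fun hdiv => ?_⟩
  · rcases hqp.dvd_or_dvd hdiv with h1 | h1
    · exact hna (hqp.dvd_of_dvd_pow h1)
    · exact hnb (hqp.dvd_of_dvd_pow h1)
  · have hid : (P.b ^ P.p - P.a ^ P.p) ^ 2 + 4 * (P.a ^ P.p * P.b ^ P.p) = (P.c ^ P.p) ^ 2 := by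
      rw [← P.hFLT]; ring
    rw [hid] at hdiv
    exact hnc (hqp.dvd_of_dvd_pow (hqp.dvd_of_dvd_pow hdiv))

/-- The identity behind the discriminant: `(b^p - a^p)² + 4 a^p b^p = (c^p)²`. -/
theorem frey_disc_identity :
    (P.b ^ P.p - P.a ^ P.p) ^ 2 + 4 * (P.a ^ P.p * P.b ^ P.p) = (P.c ^ P.p) ^ 2 := by
  rw [← P.hFLT]; ring

/-- The three cases are exhaustive (and `q ∣ a b` excludes `q ∣ c`). -/
theorem frey_cases (hq : q.Prime) :
    (¬ (q : ℤ) ∣ P.a * P.b * P.c) ∨ ((q : ℤ) ∣ P.a * P.b ∧ ¬ (q : ℤ) ∣ P.c) ∨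
      ((q : ℤ) ∣ P.c ∧ ¬ (q : ℤ) ∣ P.a * P.b) := by
  have hqp : Prime (q : ℤ) := Nat.prime_iff_prime_int.mp hq
  by_cases hc : (q : ℤ) ∣ P.c
  · right; right
    refine ⟨hc, fun hab => ?_⟩
    rcases hqp.dvd_or_dvd hab with ha | hb
    · exact (frey_case_c P hq hc).2 ha
    · exact frey_case_c_b P hq hc hb
  · by_cases hab : (q : ℤ) ∣ P.a * P.b
    · right; left; exact ⟨hab, hc⟩
    · left
      intro h
      rcases hqp.dvd_or_dvd h with h1 | h1
      · exact hab h1
      · exact hc h1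

end Frey

end Fermat.Agent.S05
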