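import Fermat.Agent.S05.CompDefs
import Fermat.Agent.S05.Arith

set_option autoImplicit false

/-!
The Frey curve is isomorphic over `ℚ` to the two-models
`Y² = X³ + (b^p - a^p) X² - a^p b^p X` and `Y² = X³ + (a^p + c^p) X² + a^p c^p X`.
-/

namespace Fermat.Agent.S05

open WeierstrassCurve

/-- The curve `Y² = X³ + α X² + β X`. -/
def twoModel {F : Type*} [CommRing F] (α β : F) : WeierstrassCurve F :=
  ⟨0, α, 0, β, 0⟩

@[simp] theorem twoModel_a₁ {F : Type*} [CommRing F] (α β : F) : (twoModel α β).a₁ = 0 := rfl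
@[simp] theorem twoModel_a₂ {F : Type*} [CommRing F] (α β : F) : (twoModel α β).a₂ = α := rfl
@[simp] theorem twoModel_a₃ {F : Type*} [CommRing F] (α β : F) : (twoModel α β).a₃ = 0 := rfl
@[simp] theorem twoModel_a₄ {F : Type*} [CommRing F] (α β : F) : (twoModel α β).a₄ = β := rfl
@[simp] theorem twoModel_a₆ {F : Type*} [CommRing F] (α β : F) : (twoModel α β).a₆ = 0 := rfl

theorem isTwoModel_twoModel {F : Type*} [Field F] (α β : F) : IsTwoModel (twoModel α β) :=
  ⟨rfl, rfl, rfl⟩

theorem twoModel_map {F K : Type*} [CommRing F] [CommRing K] (f : F →+* K) (α β : F) :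
    (twoModel α β).map f = twoModel (f α) (f β) := by
  ext <;> simp [twoModel]

theorem twoModel_baseChange {F K : Type*} [CommRing F] [CommRing K] [Algebra F K] (α β : F) :
    (twoModel α β).baseChange K = twoModel (algebraMap F K α) (algebraMap F K β) :=
  twoModel_map _ _ _

theorem isTwoModel_baseChange {F K : Type*} [Field F] [Field K] [Algebra F K] (α β : F) :
    IsTwoModel ((twoModel α β).baseChange K) := by
  rw [twoModel_baseChange]
  exact isTwoModel_twoModel _ _

/-- The change of variables `(X, Y) = (4 x + r, 8 y + 4 x)`. -/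
def freyChange (r : ℚ) : VariableChange ℚ :=
  ⟨⟨2, 1 / 2, by norm_num, by norm_num⟩, r, 1, 0⟩

variable (P : FreyPackage)

/-- The two-model with the node at `(0,0)` when `q ∣ a b`. -/
def freyModelAB : WeierstrassCurve ℚ :=
  twoModel ((P.b : ℚ) ^ P.p - (P.a : ℚ) ^ P.p) (-((P.a : ℚ) ^ P.p * (P.b : ℚ) ^ P.p))

/-- The two-model with the node at `(0,0)` when `q ∣ c`. -/
def freyModelC : WeierstrassCurve ℚ :=
  twoModel ((P.a : ℚ) ^ P.p + (P.c : ℚ) ^ P.p) ((P.a : ℚ) ^ P.p * (P.c : ℚ) ^ P.p)

theorem freyChange_smul_AB : freyChange 0 • freyModelAB P = P.freyCurve := by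
  ext
  · simp only [variableChange_a₁, freyChange, freyModelAB, twoModel, FreyPackage.freyCurve]
    norm_num
  · simp only [variableChange_a₂, freyChange, freyModelAB, twoModel, FreyPackage.freyCurve]
    norm_num
    ring
  · simp only [variableChange_a₃, freyChange, freyModelAB, twoModel, FreyPackage.freyCurve]
    norm_num
  · simp only [variableChange_a₄, freyChange, freyModelAB, twoModel, FreyPackage.freyCurve]
    norm_num
    ring
  · simp only [variableChange_a₆, freyChange, freyModelAB, twoModel, FreyPackage.freyCurve]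
    norm_num

theorem freyChange_smul_C : freyChange (-(P.a : ℚ) ^ P.p) • freyModelC P = P.freyCurve := by
  have hFLT : (P.c : ℚ) ^ P.p = (P.a : ℚ) ^ P.p + (P.b : ℚ) ^ P.p := by
    have := congrArg (fun z : ℤ => (z : ℚ)) P.hFLT
    push_cast at this
    exact this.symm
  ext
  · simp only [variableChange_a₁, freyChange, freyModelC, twoModel, FreyPackage.freyCurve]
    norm_num
  · simp only [variableChange_a₂, freyChange, freyModelC, twoModel, FreyPackage.freyCurve]
    rw [hFLT]
    norm_num
    ring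
  · simp only [variableChange_a₃, freyChange, freyModelC, twoModel, FreyPackage.freyCurve]
    norm_num
  · simp only [variableChange_a₄, freyChange, freyModelC, twoModel, FreyPackage.freyCurve]
    rw [hFLT]
    norm_num
    ring
  · simp only [variableChange_a₆, freyChange, freyModelC, twoModel, FreyPackage.freyCurve]
    rw [hFLT]
    norm_num
    ring


/-! ### Valuation data of the two-models over a field `K ⊇ ℚ` -/

set_option linter.unusedSimpArgs false

section Val

variable {K : Type*} [Field K] [Algebra ℚ K]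

theorem freyModelAB_a₂ : ((freyModelAB P).baseChange K).a₂ =
    ((P.b ^ P.p - P.a ^ P.p : ℤ) : K) := by
  rw [freyModelAB, twoModel_baseChange, twoModel_a₂]
  simp only [map_sub, map_pow, map_mul, map_neg, map_add, map_intCast, Int.cast_sub, Int.cast_pow,
    Int.cast_mul, Int.cast_neg, Int.cast_add]

theorem freyModelAB_a₄ : ((freyModelAB P).baseChange K).a₄ =
    ((-(P.a ^ P.p * P.b ^ P.p) : ℤ) : K) := by
  rw [freyModelAB, twoModel_baseChange, twoModel_a₄]
  simp only [map_sub, map_pow, map_mul, map_neg, map_add, map_intCast, Int.cast_sub, Int.cast_pow,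
    Int.cast_mul, Int.cast_neg, Int.cast_add]

theorem freyModelC_a₂ : ((freyModelC P).baseChange K).a₂ =
    ((P.a ^ P.p + P.c ^ P.p : ℤ) : K) := by
  rw [freyModelC, twoModel_baseChange, twoModel_a₂]
  simp only [map_sub, map_pow, map_mul, map_neg, map_add, map_intCast, Int.cast_sub, Int.cast_pow,
    Int.cast_mul, Int.cast_neg, Int.cast_add]

theorem freyModelC_a₄ : ((freyModelC P).baseChange K).a₄ =
    ((P.a ^ P.p * P.c ^ P.p : ℤ) : K) := by
  rw [freyModelC, twoModel_baseChange, twoModel_a₄]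
  simp only [map_sub, map_pow, map_mul, map_neg, map_add, map_intCast, Int.cast_sub, Int.cast_pow,
    Int.cast_mul, Int.cast_neg, Int.cast_add]

omit [Algebra ℚ K] in
theorem valuation_two_eq_one {A : ValuationSubring K} {q : ℕ} (hq : q.Prime) (hq2 : q ≠ 2)
    (hA : (q : K) ∈ A.nonunits) : A.valuation (2 : K) = 1 := by
  have h : ¬ (q : ℤ) ∣ (2 : ℤ) := by
    intro hd
    have h2 : q ∣ 2 := by exact_mod_cast hd
    exact hq2 ((Nat.prime_dvd_prime_iff_eq hq Nat.prime_two).mp h2)
  have := valuation_intCast_eq_one hq hA h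
  simpa using this

/-- Multiplicative case `q ∣ a b`. -/
theorem multData_AB {A : ValuationSubring K} {q : ℕ} (hq : q.Prime) (hq2 : q ≠ 2)
    (hA : (q : K) ∈ A.nonunits) (hqab : (q : ℤ) ∣ P.a * P.b) {γ : K}
    (hγ : γ ^ 2 = ((freyModelAB P).baseChange K).a₂) :
    MultData A ((freyModelAB P).baseChange K) γ where
  model := isTwoModel_baseChange _ _
  ha := by
    rw [freyModelAB_a₂]
    exact valuation_intCast_eq_one hq hA (frey_case_ab P hq hqab)
  hb := by
    rw [freyModelAB_a₄]
    refine valuation_intCast_lt_one hA ?_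
    have h : (q : ℤ) ∣ (P.a * P.b) ^ P.p := dvd_pow hqab P.hp0
    rw [mul_pow] at h
    exact (dvd_neg).mpr h
  hb0 := by
    rw [freyModelAB_a₄]
    have h : (-(P.a ^ P.p * P.b ^ P.p) : ℤ) ≠ 0 :=
      neg_ne_zero.mpr (mul_ne_zero (pow_ne_zero _ P.ha0) (pow_ne_zero _ P.hb0))
    have : CharZero K := algebraRat.charZero K
    exact Int.cast_ne_zero.mpr h
  h2 := valuation_two_eq_one hq hq2 hA
  hγ := hγ

theorem freyModelAB_valuation_a₄ (A : ValuationSubring K) :
    A.valuation ((freyModelAB P).baseChange K).a₄ =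
      A.valuation (algebraMap ℚ K ((P.a * P.b : ℤ) : ℚ)) ^ P.p := by
  have hr : algebraMap ℚ K ((P.a * P.b : ℤ) : ℚ) = ((P.a * P.b : ℤ) : K) := map_intCast _ _
  rw [freyModelAB_a₄, ← map_pow, hr]
  have : ((-(P.a ^ P.p * P.b ^ P.p) : ℤ) : K) = -((P.a * P.b : ℤ) : K) ^ P.p := by
    push_cast
    ring
  rw [this, Valuation.map_neg]

/-- Multiplicative case `q ∣ c`. -/
theorem multData_C {A : ValuationSubring K} {q : ℕ} (hq : q.Prime) (hq2 : q ≠ 2)
    (hA : (q : K) ∈ A.nonunits) (hqc : (q : ℤ) ∣ P.c) {γ : K}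
    (hγ : γ ^ 2 = ((freyModelC P).baseChange K).a₂) :
    MultData A ((freyModelC P).baseChange K) γ where
  model := isTwoModel_baseChange _ _
  ha := by
    rw [freyModelC_a₂]
    exact valuation_intCast_eq_one hq hA (frey_case_c P hq hqc).1
  hb := by
    rw [freyModelC_a₄]
    refine valuation_intCast_lt_one hA ?_
    exact dvd_mul_of_dvd_right (dvd_pow hqc P.hp0) _
  hb0 := by
    rw [freyModelC_a₄]
    have h : (P.a ^ P.p * P.c ^ P.p : ℤ) ≠ 0 :=
      mul_ne_zero (pow_ne_zero _ P.ha0) (pow_ne_zero _ P.hc0)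
    have : CharZero K := algebraRat.charZero K
    exact Int.cast_ne_zero.mpr h
  h2 := valuation_two_eq_one hq hq2 hA
  hγ := hγ

theorem freyModelC_valuation_a₄ (A : ValuationSubring K) :
    A.valuation ((freyModelC P).baseChange K).a₄ =
      A.valuation (algebraMap ℚ K ((P.a * P.c : ℤ) : ℚ)) ^ P.p := by
  have hr : algebraMap ℚ K ((P.a * P.c : ℤ) : ℚ) = ((P.a * P.c : ℤ) : K) := map_intCast _ _
  rw [freyModelC_a₄, ← map_pow, hr]
  congr 1
  push_cast
  ring

/-- Good reduction case `q ∤ a b c`, for the model with the node candidates at `0, a^p, -b^p`. -/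
theorem goodData_AB {A : ValuationSubring K} {q : ℕ} (hq : q.Prime) (hq2 : q ≠ 2)
    (hA : (q : K) ∈ A.nonunits) (h : ¬ (q : ℤ) ∣ P.a * P.b * P.c) :
    ((freyModelAB P).baseChange K).a₂ ∈ A ∧ ((freyModelAB P).baseChange K).a₄ ∈ A ∧
      A.valuation (2 : K) = 1 ∧
      A.valuation (((freyModelAB P).baseChange K).a₂ ^ 2 -
        4 * ((freyModelAB P).baseChange K).a₄) = 1 ∧
      A.valuation ((freyModelAB P).baseChange K).a₄ = 1 := by
  obtain ⟨h1, h2⟩ := frey_case_good P hq h
  rw [freyModelAB_a₂, freyModelAB_a₄]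
  refine ⟨intCast_mem A _, intCast_mem A _, valuation_two_eq_one hq hq2 hA, ?_, ?_⟩
  · have := valuation_intCast_eq_one hq hA h2
    rw [← this]
    congr 1
    push_cast
    ring
  · exact valuation_intCast_eq_one hq hA (by rwa [dvd_neg])

end Val

end Fermat.Agent.S05
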