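import Mathlib

set_option autoImplicit false

/-!
Transfer of points along an admissible change of variables of Weierstrass curves:
if `C • W = W'` then `(x, y) ↦ (u² x + r, u³ y + u² s x + t)` is an injective group
homomorphism from the points of `W'` to the points of `W`, compatible with field
automorphisms fixing the coefficients.
-/

namespace Fermat.Agent.S05

open WeierstrassCurve WeierstrassCurve.Affine

namespace Transfer

variable {K : Type*} [Field K]

/-- the new `x`-coordinate -/
def newX (C : VariableChange K) (x : K) : K := (C.u : K) ^ 2 * x + C.r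

/-- the new `y`-coordinate -/
def newY (C : VariableChange K) (x y : K) : K :=
  (C.u : K) ^ 3 * y + (C.u : K) ^ 2 * C.s * x + C.t

theorem u_ne_zero (C : VariableChange K) : (C.u : K) ≠ 0 := C.u.ne_zero

theorem equation_new (W : WeierstrassCurve K) (C : VariableChange K) (x y : K) :
    W.toAffine.Equation (newX C x) (newY C x y) ↔ (C • W).toAffine.Equation x y := by
  have hu := u_ne_zero C
  rw [equation_iff, equation_iff]
  simp only [variableChange_a₁, variableChange_a₂, variableChange_a₃, variableChange_a₄,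
    variableChange_a₆, Units.val_inv_eq_inv_val, newX, newY]
  constructor
  · intro h
    field_simp
    linear_combination h
  · intro h
    field_simp at h
    linear_combination h


theorem polyX_new (W : WeierstrassCurve K) (C : VariableChange K) (x y : K) :
    W.a₁ * newY C x y - (3 * newX C x ^ 2 + 2 * W.a₂ * newX C x + W.a₄) =
      (C.u : K) ^ 4 * ((C • W).a₁ * y - (3 * x ^ 2 + 2 * (C • W).a₂ * x + (C • W).a₄)) -
        C.s * (C.u : K) ^ 3 * (y - (-y - (C • W).a₁ * x - (C • W).a₃)) := by
  have hu := u_ne_zero C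
  simp only [variableChange_a₁, variableChange_a₂, variableChange_a₃, variableChange_a₄,
    Units.val_inv_eq_inv_val, newX, newY]
  field_simp
  ring

theorem polyY_new (W : WeierstrassCurve K) (C : VariableChange K) (x y : K) :
    newY C x y - (-newY C x y - W.a₁ * newX C x - W.a₃) =
      (C.u : K) ^ 3 * (y - (-y - (C • W).a₁ * x - (C • W).a₃)) := by
  have hu := u_ne_zero C
  simp only [variableChange_a₁, variableChange_a₃, Units.val_inv_eq_inv_val, newX, newY]
  field_simp
  ring

theorem nonsingular_new (W : WeierstrassCurve K) (C : VariableChange K) (x y : K) :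
    W.toAffine.Nonsingular (newX C x) (newY C x y) ↔ (C • W).toAffine.Nonsingular x y := by
  have hu := u_ne_zero C
  have hu3 : (C.u : K) ^ 3 ≠ 0 := pow_ne_zero 3 hu
  have hu4 : (C.u : K) ^ 4 ≠ 0 := pow_ne_zero 4 hu
  rw [nonsingular_iff, nonsingular_iff, equation_new]
  apply and_congr_right
  intro _
  have kX := polyX_new W C x y
  have kY := polyY_new W C x y
  rw [← sub_ne_zero, ← sub_ne_zero (a := newY C x y), ← sub_ne_zero (a := (C • W).toAffine.a₁ * y),
    ← sub_ne_zero (a := y)]
  change (W.a₁ * newY C x y - (3 * newX C x ^ 2 + 2 * W.a₂ * newX C x + W.a₄) ≠ 0 ∨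
    newY C x y - (-newY C x y - W.a₁ * newX C x - W.a₃) ≠ 0) ↔
    ((C • W).a₁ * y - (3 * x ^ 2 + 2 * (C • W).a₂ * x + (C • W).a₄) ≠ 0 ∨
      y - (-y - (C • W).a₁ * x - (C • W).a₃) ≠ 0)
  rw [kX, kY]
  set gx := (C • W).a₁ * y - (3 * x ^ 2 + 2 * (C • W).a₂ * x + (C • W).a₄)
  set gy := y - (-y - (C • W).a₁ * x - (C • W).a₃)
  constructor
  · rintro (h | h)
    · by_contra hcon
      rw [not_or, not_not, not_not] at hcon
      apply h
      rw [hcon.1, hcon.2]
      ring
    · right
      intro h2
      apply h
      rw [h2, mul_zero]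
  · rintro (h | h)
    · by_cases hgy : gy = 0
      · left
        rw [hgy, mul_zero, sub_zero]
        exact mul_ne_zero hu4 h
      · right
        exact mul_ne_zero hu3 hgy
    · right
      exact mul_ne_zero hu3 h

theorem negY_new (W : WeierstrassCurve K) (C : VariableChange K) (x y : K) :
    W.toAffine.negY (newX C x) (newY C x y) = newY C x ((C • W).toAffine.negY x y) := by
  have hu := u_ne_zero C
  simp only [negY, variableChange_a₁, variableChange_a₃, Units.val_inv_eq_inv_val, newX, newY]
  field_simp
  ring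

theorem newX_injective (C : VariableChange K) : Function.Injective (newX C) := by
  intro x x' h
  have hu := u_ne_zero C
  simp only [newX] at h
  have h2 : (C.u : K) ^ 2 * x = (C.u : K) ^ 2 * x' := add_right_cancel h
  exact mul_left_cancel₀ (pow_ne_zero 2 hu) h2

theorem newY_injective (C : VariableChange K) (x : K) : Function.Injective (newY C x) := by
  intro y y' h
  have hu := u_ne_zero C
  simp only [newY] at h
  have h2 : (C.u : K) ^ 3 * y = (C.u : K) ^ 3 * y' := add_right_cancel (add_right_cancel h)
  exact mul_left_cancel₀ (pow_ne_zero 3 hu) h2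

theorem addX_new (W : WeierstrassCurve K) (C : VariableChange K) (x₁ x₂ ℓ : K) :
    W.toAffine.addX (newX C x₁) (newX C x₂) ((C.u : K) * ℓ + C.s) =
      newX C ((C • W).toAffine.addX x₁ x₂ ℓ) := by
  have hu := u_ne_zero C
  simp only [addX, variableChange_a₁, variableChange_a₂, Units.val_inv_eq_inv_val, newX]
  field_simp
  ring

theorem addY_new (W : WeierstrassCurve K) (C : VariableChange K) (x₁ x₂ y₁ ℓ : K) :
    W.toAffine.addY (newX C x₁) (newX C x₂) (newY C x₁ y₁) ((C.u : K) * ℓ + C.s) =
      newY C ((C • W).toAffine.addX x₁ x₂ ℓ) ((C • W).toAffine.addY x₁ x₂ y₁ ℓ) := by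
  have hu := u_ne_zero C
  simp only [addY, negAddY, negY, addX, variableChange_a₁, variableChange_a₂, variableChange_a₃,
    Units.val_inv_eq_inv_val, newX, newY]
  field_simp
  ring

variable [DecidableEq K]

theorem slope_new (W : WeierstrassCurve K) (C : VariableChange K) {x₁ x₂ y₁ y₂ : K}
    (h₁ : (C • W).toAffine.Equation x₁ y₁) (h₂ : (C • W).toAffine.Equation x₂ y₂)
    (hxy : ¬(x₁ = x₂ ∧ y₁ = (C • W).toAffine.negY x₂ y₂)) :
    W.toAffine.slope (newX C x₁) (newX C x₂) (newY C x₁ y₁) (newY C x₂ y₂) =
      (C.u : K) * (C • W).toAffine.slope x₁ x₂ y₁ y₂ + C.s := by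
  have hu := u_ne_zero C
  by_cases hx : x₁ = x₂
  · subst hx
    have hy : y₁ ≠ (C • W).toAffine.negY x₁ y₂ := fun h => hxy ⟨rfl, h⟩
    have hyy : y₁ = y₂ := Y_eq_of_Y_ne h₁ h₂ rfl hy
    subst hyy
    have hy' : newY C x₁ y₁ ≠ W.toAffine.negY (newX C x₁) (newY C x₁ y₁) := by
      rw [negY_new]
      exact fun h => hy (newY_injective C x₁ h)
    rw [slope_of_Y_ne rfl hy, slope_of_Y_ne rfl hy']
    have hden : y₁ - (C • W).toAffine.negY x₁ y₁ ≠ 0 := sub_ne_zero.mpr hy
    have hden' : newY C x₁ y₁ - W.toAffine.negY (newX C x₁) (newY C x₁ y₁) ≠ 0 :=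
      sub_ne_zero.mpr hy'
    have kX := polyX_new W C x₁ y₁
    have kY := polyY_new W C x₁ y₁
    simp only [negY] at hden hden' ⊢
    have hN : 3 * newX C x₁ ^ 2 + 2 * W.toAffine.a₂ * newX C x₁ + W.toAffine.a₄ -
        W.toAffine.a₁ * newY C x₁ y₁ =
        (C.u : K) ^ 4 * (3 * x₁ ^ 2 + 2 * (C • W).toAffine.a₂ * x₁ + (C • W).toAffine.a₄ -
          (C • W).toAffine.a₁ * y₁) +
        C.s * (C.u : K) ^ 3 * (y₁ - (-y₁ - (C • W).toAffine.a₁ * x₁ - (C • W).toAffine.a₃)) := by
      linear_combination (-1 : K) * kX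
    have hD : newY C x₁ y₁ - (-newY C x₁ y₁ - W.toAffine.a₁ * newX C x₁ - W.toAffine.a₃) =
        (C.u : K) ^ 3 * (y₁ - (-y₁ - (C • W).toAffine.a₁ * x₁ - (C • W).toAffine.a₃)) := kY
    rw [hN, hD]
    generalize 3 * x₁ ^ 2 + 2 * (C • W).toAffine.a₂ * x₁ + (C • W).toAffine.a₄ -
          (C • W).toAffine.a₁ * y₁ = n at *
    generalize y₁ - (-y₁ - (C • W).toAffine.a₁ * x₁ - (C • W).toAffine.a₃) = d at *
    field_simp
  · have hx' : newX C x₁ ≠ newX C x₂ := fun h => hx (newX_injective C h)
    rw [slope_of_X_ne hx, slope_of_X_ne hx']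
    have h1 : x₁ - x₂ ≠ 0 := sub_ne_zero.mpr hx
    have h2 : newX C x₁ - newX C x₂ ≠ 0 := sub_ne_zero.mpr hx'
    rw [div_eq_iff h2]
    simp only [newX, newY]
    field_simp
    ring

/-- The transfer map on points, for `C • W = W'`. -/
def transferFun {W W' : WeierstrassCurve K} (C : VariableChange K) (hW : C • W = W') :
    W'.toAffine.Point → W.toAffine.Point
  | .zero => .zero
  | .some x y h => .some (newX C x) (newY C x y)
      ((nonsingular_new W C x y).mpr (by rw [hW]; exact h))

omit [DecidableEq K] in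
theorem transferFun_zero {W W' : WeierstrassCurve K} (C : VariableChange K) (hW : C • W = W') :
    transferFun C hW (0 : W'.toAffine.Point) = 0 := rfl

omit [DecidableEq K] in
theorem transferFun_some {W W' : WeierstrassCurve K} (C : VariableChange K) (hW : C • W = W')
    {x y : K} (h : W'.toAffine.Nonsingular x y) :
    transferFun C hW (Point.some x y h) = Point.some (newX C x) (newY C x y)
      ((nonsingular_new W C x y).mpr (by rw [hW]; exact h)) := rfl

theorem transferFun_add {W W' : WeierstrassCurve K} (C : VariableChange K) (hW : C • W = W')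
    (P Q : W'.toAffine.Point) :
    transferFun C hW (P + Q) = transferFun C hW P + transferFun C hW Q := by
  subst hW
  rcases P with _ | ⟨x₁, y₁, h₁⟩
  · rfl
  rcases Q with _ | ⟨x₂, y₂, h₂⟩
  · rfl
  by_cases hxy : x₁ = x₂ ∧ y₁ = (C • W).toAffine.negY x₂ y₂
  · obtain ⟨hx, hy⟩ := hxy
    subst hx
    rw [Point.add_of_Y_eq rfl hy, transferFun_some, transferFun_some,
      Point.add_of_Y_eq rfl (by rw [negY_new, hy])]
    rfl
  · have hxy' : ¬(newX C x₁ = newX C x₂ ∧
        newY C x₁ y₁ = W.toAffine.negY (newX C x₂) (newY C x₂ y₂)) := by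
      rintro ⟨h1, h2⟩
      have hx : x₁ = x₂ := newX_injective C h1
      subst hx
      rw [negY_new] at h2
      exact hxy ⟨rfl, newY_injective C x₁ h2⟩
    rw [Point.add_some hxy, transferFun_some, transferFun_some, transferFun_some,
      Point.add_some hxy']
    have hs := slope_new W C h₁.1 h₂.1 hxy
    congr 1
    · rw [hs, addX_new]
    · rw [hs, addY_new]

omit [DecidableEq K] in
theorem transferFun_injective {W W' : WeierstrassCurve K} (C : VariableChange K)
    (hW : C • W = W') : Function.Injective (transferFun C hW) := by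
  rintro (_ | ⟨x₁, y₁, h₁⟩) (_ | ⟨x₂, y₂, h₂⟩) h
  · rfl
  · simp [transferFun] at h
  · simp [transferFun] at h
  · simp only [transferFun, Point.some.injEq] at h
    have hx : x₁ = x₂ := newX_injective C h.1
    subst hx
    have hy : y₁ = y₂ := newY_injective C x₁ h.2
    subst hy
    rfl

/-- The transfer map as a group homomorphism. -/
def transferHom {W W' : WeierstrassCurve K} (C : VariableChange K) (hW : C • W = W') :
    W'.toAffine.Point →+ W.toAffine.Point where
  toFun := transferFun C hW
  map_zero' := rfl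
  map_add' := transferFun_add C hW

end Transfer

variable {K : Type*} [Field K] [DecidableEq K]

/-- **WP-T**: transfer of points along an admissible change of variables, compatible with
the action of `F`-algebra endomorphisms of `K`. -/
theorem exists_transfer {F : Type*} [Field F] [Algebra F K] (W₁ W₂ : Affine F)
    (C : VariableChange F) (hC : C • W₂ = W₁) :
    ∃ ψ : (W₁⁄K).Point →+ (W₂⁄K).Point, Function.Injective ψ ∧
      ∀ (σ : K →ₐ[F] K) (P : (W₁⁄K).Point),
        ψ (Point.map (W' := W₁) σ P) = Point.map (W' := W₂) σ (ψ P) := by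
  have hW : (C.baseChange K) • (W₂.baseChange K) = W₁.baseChange K := by
    rw [← hC]
    exact map_variableChange ..
  refine ⟨Transfer.transferHom (C.baseChange K) hW, Transfer.transferFun_injective _ hW, ?_⟩
  intro σ P
  rcases P with _ | ⟨x, y, h⟩
  · rfl
  · change Transfer.transferFun _ hW (Point.map (W' := W₁) σ (Point.some x y h)) =
      Point.map (W' := W₂) σ (Transfer.transferFun _ hW (Point.some x y h))
    rw [Point.map_some, Transfer.transferFun_some, Transfer.transferFun_some, Point.map_some]
    congr 1 <;>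
      simp [Transfer.newX, Transfer.newY, VariableChange.baseChange, VariableChange.map]

end Fermat.Agent.S05
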