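import Mathlib
import Fermat.Prelude.Def_FLTPrelim_FreyPackage

set_option autoImplicit false

/-!
Two-torsion models of the Frey curve and the changes of variables relating them to it.
-/

namespace Fermat.Agent.S05

open WeierstrassCurve

/-- The model `Y² = X³ + (b^p - a^p) X² - a^p b^p X` of the Frey curve. -/
def freyTwoAB (P : FreyPackage) : WeierstrassCurve ℚ :=
  ⟨0, ((P.b ^ P.p - P.a ^ P.p : ℤ) : ℚ), 0, ((-(P.a ^ P.p * P.b ^ P.p) : ℤ) : ℚ), 0⟩

/-- The model `Y² = X³ + (a^p + c^p) X² + a^p c^p X` of the Frey curve. -/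
def freyTwoC (P : FreyPackage) : WeierstrassCurve ℚ :=
  ⟨0, ((P.a ^ P.p + P.c ^ P.p : ℤ) : ℚ), 0, ((P.a ^ P.p * P.c ^ P.p : ℤ) : ℚ), 0⟩

/-- The change of variables from `freyTwoAB` to the Frey curve. -/
def changeTwoAB : VariableChange ℚ := ⟨Units.mk0 (2 : ℚ) two_ne_zero, 0, 1, 0⟩

/-- The change of variables from `freyTwoC` to the Frey curve. -/
def changeTwoC (P : FreyPackage) : VariableChange ℚ :=
  ⟨Units.mk0 (2 : ℚ) two_ne_zero, -((P.a ^ P.p : ℤ) : ℚ), 1, 0⟩

theorem changeTwoAB_smul (P : FreyPackage) : changeTwoAB • freyTwoAB P = P.freyCurve := by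
  ext
  · simp [changeTwoAB, freyTwoAB, FreyPackage.freyCurve, variableChange_a₁]
  · simp [changeTwoAB, freyTwoAB, FreyPackage.freyCurve, variableChange_a₂]
    ring
  · simp [changeTwoAB, freyTwoAB, FreyPackage.freyCurve, variableChange_a₃]
  · simp [changeTwoAB, freyTwoAB, FreyPackage.freyCurve, variableChange_a₄]
    ring
  · simp [changeTwoAB, freyTwoAB, FreyPackage.freyCurve, variableChange_a₆]

theorem changeTwoC_smul (P : FreyPackage) : changeTwoC P • freyTwoC P = P.freyCurve := by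
  have hF : ((P.c : ℚ)) ^ P.p = (P.a : ℚ) ^ P.p + (P.b : ℚ) ^ P.p := by
    have := congrArg (fun t : ℤ => (t : ℚ)) P.hFLT
    push_cast at this
    exact this.symm
  ext
  · simp [changeTwoC, freyTwoC, FreyPackage.freyCurve, variableChange_a₁]
  · simp [changeTwoC, freyTwoC, FreyPackage.freyCurve, variableChange_a₂, hF]
    ring
  · simp [changeTwoC, freyTwoC, FreyPackage.freyCurve, variableChange_a₃]
  · simp [changeTwoC, freyTwoC, FreyPackage.freyCurve, variableChange_a₄, hF]
    ring
  · simp [changeTwoC, freyTwoC, FreyPackage.freyCurve, variableChange_a₆, hF]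
    ring

end Fermat.Agent.S05
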