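import Mathlib
import Fermat.Prelude.Def_FLTPrelim_Ramification

set_option autoImplicit false

/-!
Elements of the inertia group of a valuation subring `A` of `L` over `K`: they stabilise `A`,
preserve the valuation and move elements of `A` only by elements of the maximal ideal.
-/

namespace Fermat.Agent.S05

section Inertia

variable {K L : Type*} [Field K] [Field L] [Algebra K L]

open scoped Pointwise

/-- Membership in the inertia group, unfolded. -/
theorem mem_inertiaSubgroupIn_iff (A : ValuationSubring L) (σ : L ≃ₐ[K] L) :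
    σ ∈ A.inertiaSubgroupIn K ↔
      ∃ h : σ ∈ A.decompositionSubgroup K, (⟨σ, h⟩ : A.decompositionSubgroup K) ∈
        A.inertiaSubgroup K := by
  unfold ValuationSubring.inertiaSubgroupIn
  constructor
  · rintro ⟨τ, hτ, rfl⟩
    exact ⟨τ.2, hτ⟩
  · rintro ⟨h, hσ⟩
    exact ⟨⟨σ, h⟩, hσ, rfl⟩

theorem inertia_smul_eq {A : ValuationSubring L} {σ : L ≃ₐ[K] L}
    (hσ : σ ∈ A.inertiaSubgroupIn K) : σ • A = A := by
  obtain ⟨h, -⟩ := (mem_inertiaSubgroupIn_iff A σ).mp hσ
  exact h

theorem inertia_map_mem {A : ValuationSubring L} {σ : L ≃ₐ[K] L}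
    (hσ : σ ∈ A.inertiaSubgroupIn K) {x : L} (hx : x ∈ A) : σ x ∈ A := by
  have h := inertia_smul_eq hσ
  have : σ • x ∈ σ • A := ValuationSubring.smul_mem_pointwise_smul _ _ _ hx
  rw [h] at this
  exact this

theorem inertia_symm_mem {A : ValuationSubring L} {σ : L ≃ₐ[K] L}
    (hσ : σ ∈ A.inertiaSubgroupIn K) : σ⁻¹ ∈ A.inertiaSubgroupIn K :=
  inv_mem hσ

theorem inertia_map_mem_iff {A : ValuationSubring L} {σ : L ≃ₐ[K] L}
    (hσ : σ ∈ A.inertiaSubgroupIn K) {x : L} : σ x ∈ A ↔ x ∈ A := by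
  constructor
  · intro h
    have := inertia_map_mem (inertia_symm_mem hσ) h
    simpa using this
  · exact inertia_map_mem hσ


theorem inertia_sub_lt_one {A : ValuationSubring L} {σ : L ≃ₐ[K] L}
    (hσ : σ ∈ A.inertiaSubgroupIn K) {x : L} (hx : x ∈ A) : A.valuation (σ x - x) < 1 := by
  obtain ⟨h, hker⟩ := (mem_inertiaSubgroupIn_iff A σ).mp hσ
  have h1 : MulSemiringAction.toRingAut (A.decompositionSubgroup K) (IsLocalRing.ResidueField A)
      ⟨σ, h⟩ = 1 := hker
  have h2 : (⟨σ, h⟩ : A.decompositionSubgroup K) • IsLocalRing.residue A ⟨x, hx⟩ =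
      IsLocalRing.residue A ⟨x, hx⟩ := by
    have := congrArg (fun f : RingAut (IsLocalRing.ResidueField A) =>
      f (IsLocalRing.residue A ⟨x, hx⟩)) h1
    simpa using this
  rw [← IsLocalRing.ResidueField.residue_smul] at h2
  have h3 : IsLocalRing.residue A
      ((⟨σ, h⟩ : A.decompositionSubgroup K) • (⟨x, hx⟩ : A) - ⟨x, hx⟩) = 0 := by
    rw [map_sub, h2, sub_self]
  have h4 := (IsLocalRing.residue_eq_zero_iff _).mp h3
  rw [ValuationSubring.valuation_lt_one_iff] at h4
  exact h4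

theorem inertia_sub_lt_of_base {A : ValuationSubring L} {σ : L ≃ₐ[K] L}
    (hσ : σ ∈ A.inertiaSubgroupIn K) {x : L} {r : K}
    (hxr : A.valuation x = A.valuation (algebraMap K L r)) (hx0 : x ≠ 0) :
    A.valuation (σ x - x) < A.valuation x := by
  have hr0 : algebraMap K L r ≠ 0 := by
    intro h
    rw [h, map_zero, Valuation.zero_iff] at hxr
    exact hx0 hxr
  set ρ : L := algebraMap K L r with hρ
  have hvρ : 0 < A.valuation ρ := (Valuation.pos_iff _).mpr hr0
  have hξ : A.valuation (x / ρ) = 1 := by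
    rw [map_div₀, hxr, div_self hvρ.ne']
  have hξA : x / ρ ∈ A := (A.valuation_le_one_iff _).mp hξ.le
  have hfix : σ ρ = ρ := by rw [hρ]; exact σ.commutes r
  have hdecomp : σ x - x = ρ * (σ (x / ρ) - x / ρ) := by
    rw [map_div₀, hfix]
    field_simp
  rw [hdecomp, map_mul, hxr]
  calc A.valuation ρ * A.valuation (σ (x / ρ) - x / ρ)
      < A.valuation ρ * 1 := mul_lt_mul_of_pos_left (inertia_sub_lt_one hσ hξA) hvρ
    _ = A.valuation ρ := mul_one _

theorem inertia_valuation_eq_of_base {A : ValuationSubring L} {σ : L ≃ₐ[K] L}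
    (hσ : σ ∈ A.inertiaSubgroupIn K) {x : L} {r : K}
    (hxr : A.valuation x = A.valuation (algebraMap K L r)) (hx0 : x ≠ 0) :
    A.valuation (σ x) = A.valuation x :=
  Valuation.map_eq_of_sub_lt _ (inertia_sub_lt_of_base hσ hxr hx0)


theorem inertia_sub_lt_of_base_pow {A : ValuationSubring L} {σ : L ≃ₐ[K] L}
    (hσ : σ ∈ A.inertiaSubgroupIn K) {x : L} {r : K} {j : ℕ}
    (hxr : A.valuation x = A.valuation (algebraMap K L r) ^ j) (hx0 : x ≠ 0) :
    A.valuation (σ x - x) < A.valuation x := by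
  apply inertia_sub_lt_of_base hσ (r := r ^ j) _ hx0
  rw [map_pow, map_pow]
  exact hxr

/-- Elements of the base field are fixed, so their valuations are preserved. -/
theorem inertia_sub_lt_of_eq_mul {A : ValuationSubring L} {σ : L ≃ₐ[K] L}
    (hσ : σ ∈ A.inertiaSubgroupIn K) {x y : L} {r : K}
    (hxr : A.valuation x = A.valuation (algebraMap K L r))
    (hy : A.valuation y ≤ A.valuation x) :
    A.valuation (σ y - y) < A.valuation x ∨ x = 0 := by
  by_cases hx0 : x = 0
  · exact Or.inr hx0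
  left
  have hr0 : algebraMap K L r ≠ 0 := by
    intro h
    rw [h, map_zero, Valuation.zero_iff] at hxr
    exact hx0 hxr
  set ρ : L := algebraMap K L r with hρ
  have hvρ : 0 < A.valuation ρ := (Valuation.pos_iff _).mpr hr0
  have hξ : A.valuation (y / ρ) ≤ 1 := by
    rw [map_div₀, ← hxr]
    exact div_le_one_of_le₀ hy zero_le
  have hξA : y / ρ ∈ A := (A.valuation_le_one_iff _).mp hξ
  have hfix : σ ρ = ρ := by rw [hρ]; exact σ.commutes r
  have hdecomp : σ y - y = ρ * (σ (y / ρ) - y / ρ) := by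
    rw [map_div₀, hfix]
    field_simp
  rw [hdecomp, map_mul, hxr]
  calc A.valuation ρ * A.valuation (σ (y / ρ) - y / ρ)
      < A.valuation ρ * 1 := mul_lt_mul_of_pos_left (inertia_sub_lt_one hσ hξA) hvρ
    _ = A.valuation ρ := mul_one _

end Inertia

end Fermat.Agent.S05
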