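import Fermat.Agent.S05.ModelFixed
import Fermat.Agent.S05.Transfer
import Fermat.Agent.S05.Arith
import Fermat.Agent.S05.FreyTwo
import Fermat.Agent.S05.Inertia

set_option autoImplicit false
set_option linter.unusedSectionVars false

/-!
Final glue for S05: the three reduction cases of the Frey curve at an odd prime `q ≠ p`.
-/

namespace Fermat.Agent.S05

open WeierstrassCurve WeierstrassCurve.Affine

variable {K : Type*} [Field K] [DecidableEq K] [Algebra ℚ K]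

/-- transfer of the fixed point property along a change of variables -/
theorem map_eq_self_of_model (W₁ W₂ : Affine ℚ) (C : VariableChange ℚ) (hC : C • W₂ = W₁)
    (f : K →ₐ[ℚ] K) (n : ℕ)
    (hmodel : ∀ Q : (W₂⁄K).Point, n • Q = 0 → Point.map (W' := W₂) f Q = Q)
    (P₀ : (W₁⁄K).Point) (hP₀ : n • P₀ = 0) : Point.map (W' := W₁) f P₀ = P₀ := by
  obtain ⟨ψ, hinj, hcomm⟩ := exists_transfer (K := K) W₁ W₂ C hC
  apply hinj
  rw [hcomm]
  apply hmodel
  rw [← map_nsmul, hP₀, map_zero]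

section frey

variable (P : FreyPackage) {q : ℕ} (hq : q.Prime) (hq2 : q ≠ 2) (hqp : q ≠ P.p)
  (A : ValuationSubring K) (hA : (q : K) ∈ A.nonunits)

include hq hq2 hA in
theorem valuation_two : A.valuation (2 : K) = 1 := by
  have h : ¬ (q : ℤ) ∣ (2 : ℤ) := by
    intro hd
    have h1 : q ∣ 2 := by exact_mod_cast hd
    exact hq2 ((Nat.prime_dvd_prime_iff_eq hq Nat.prime_two).mp h1)
  have := valuation_intCast_eq_one hq hA h
  simpa using this

include hq hqp hA in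
theorem valuation_p : A.valuation (P.p : K) = 1 := by
  have h : ¬ (q : ℤ) ∣ (P.p : ℤ) := by
    intro hd
    have h1 : q ∣ P.p := by exact_mod_cast hd
    exact hqp ((Nat.prime_dvd_prime_iff_eq hq P.pp).mp h1)
  have := valuation_intCast_eq_one hq hA h
  simpa using this

theorem isTwoModel_AB : IsTwoModel ((freyTwoAB P)⁄K) :=
  ⟨by simp [freyTwoAB], by simp [freyTwoAB], by simp [freyTwoAB]⟩

theorem isTwoModel_C : IsTwoModel ((freyTwoC P)⁄K) :=
  ⟨by simp [freyTwoC], by simp [freyTwoC], by simp [freyTwoC]⟩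

theorem a₂_AB : ((freyTwoAB P)⁄K).a₂ = ((P.b ^ P.p - P.a ^ P.p : ℤ) : K) := by
  show algebraMap ℚ K ((P.b ^ P.p - P.a ^ P.p : ℤ) : ℚ) = _
  exact map_intCast _ _

theorem a₄_AB : ((freyTwoAB P)⁄K).a₄ = ((-(P.a ^ P.p * P.b ^ P.p) : ℤ) : K) := by
  show algebraMap ℚ K ((-(P.a ^ P.p * P.b ^ P.p) : ℤ) : ℚ) = _
  exact map_intCast _ _

theorem a₂_C : ((freyTwoC P)⁄K).a₂ = ((P.a ^ P.p + P.c ^ P.p : ℤ) : K) := by
  show algebraMap ℚ K ((P.a ^ P.p + P.c ^ P.p : ℤ) : ℚ) = _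
  exact map_intCast _ _

theorem a₄_C : ((freyTwoC P)⁄K).a₄ = ((P.a ^ P.p * P.c ^ P.p : ℤ) : K) := by
  show algebraMap ℚ K ((P.a ^ P.p * P.c ^ P.p : ℤ) : ℚ) = _
  exact map_intCast _ _

include hq hq2 hqp hA in
theorem frey_good_fixed (hgood : ¬ (q : ℤ) ∣ P.a * P.b * P.c) (f : K →ₐ[ℚ] K)
    (hf : ∀ x ∈ A, A.valuation (f x - x) < 1) (Q : ((freyTwoAB P)⁄K).Point)
    (hQ : P.p • Q = 0) : Point.map (W' := freyTwoAB P) f Q = Q := by
  obtain ⟨h1, h2⟩ := frey_case_good P hq hgood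
  refine map_eq_self_of_good (isTwoModel_AB P) A f hf ?_ ?_ (valuation_two hq hq2 A hA) ?_
    (valuation_p P hq hqp A hA) hQ
  · rw [a₂_AB]; exact intCast_mem A _
  · rw [a₄_AB]
    exact valuation_intCast_eq_one hq hA (by rwa [dvd_neg])
  · rw [a₂_AB, a₄_AB]
    have e : ((P.b ^ P.p - P.a ^ P.p : ℤ) : K) ^ 2 - 4 * ((-(P.a ^ P.p * P.b ^ P.p) : ℤ) : K) =
        (((P.b ^ P.p - P.a ^ P.p) ^ 2 + 4 * (P.a ^ P.p * P.b ^ P.p) : ℤ) : K) := by
      push_cast; ring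
    rw [e]
    exact valuation_intCast_eq_one hq hA h2

variable [IsAlgClosed K]

include hq hq2 hqp hA in
theorem frey_ab_fixed (hab : (q : ℤ) ∣ P.a * P.b) (f : K →ₐ[ℚ] K)
    (hf : ∀ x ∈ A, A.valuation (f x - x) < 1) (Q : ((freyTwoAB P)⁄K).Point)
    (hQ : P.p • Q = 0) : Point.map (W' := freyTwoAB P) f Q = Q := by
  obtain ⟨γ, hγ⟩ := IsAlgClosed.exists_pow_nat_eq ((freyTwoAB P)⁄K).a₂ (n := 2) (by norm_num)
  have hp2 : P.p ≠ 2 := by have := P.hp5; omega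
  have hdvd : (q : ℤ) ∣ -(P.a ^ P.p * P.b ^ P.p) := by
    rw [dvd_neg, ← mul_pow]
    exact dvd_pow hab P.hp0
  have D : MultData A ((freyTwoAB P)⁄K) γ := by
    refine ⟨isTwoModel_AB P, ?_, ?_, ?_, valuation_two hq hq2 A hA, hγ⟩
    · rw [a₂_AB]; exact valuation_intCast_eq_one hq hA (frey_case_ab P hq hab)
    · rw [a₄_AB]; exact valuation_intCast_lt_one hA hdvd
    · rw [a₄_AB]
      have hne : (-(P.a ^ P.p * P.b ^ P.p) : ℤ) ≠ 0 :=
        neg_ne_zero.mpr (mul_ne_zero (pow_ne_zero _ P.ha0) (pow_ne_zero _ P.hb0))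
      have hchar : CharZero K := algebraRat.charZero K
      exact_mod_cast hne
  refine map_eq_self_of_mult A f hf D P.pp hp2 (valuation_p P hq hqp A hA)
    (r := ((P.a * P.b : ℤ) : ℚ)) ?_ hQ
  rw [a₄_AB, map_intCast (algebraMap ℚ K), ← map_pow]
  have : ((-(P.a ^ P.p * P.b ^ P.p) : ℤ) : K) = -(((P.a * P.b : ℤ) : K) ^ P.p) := by
    push_cast; ring
  rw [this, Valuation.map_neg]

include hq hq2 hqp hA in
theorem frey_c_fixed (hc : (q : ℤ) ∣ P.c) (f : K →ₐ[ℚ] K)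
    (hf : ∀ x ∈ A, A.valuation (f x - x) < 1) (Q : ((freyTwoC P)⁄K).Point)
    (hQ : P.p • Q = 0) : Point.map (W' := freyTwoC P) f Q = Q := by
  obtain ⟨γ, hγ⟩ := IsAlgClosed.exists_pow_nat_eq ((freyTwoC P)⁄K).a₂ (n := 2) (by norm_num)
  have hp2 : P.p ≠ 2 := by have := P.hp5; omega
  have hdvd : (q : ℤ) ∣ P.a ^ P.p * P.c ^ P.p :=
    dvd_mul_of_dvd_right (dvd_pow hc P.hp0) _
  have D : MultData A ((freyTwoC P)⁄K) γ := by
    refine ⟨isTwoModel_C P, ?_, ?_, ?_, valuation_two hq hq2 A hA, hγ⟩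
    · rw [a₂_C]; exact valuation_intCast_eq_one hq hA (frey_case_c P hq hc).1
    · rw [a₄_C]; exact valuation_intCast_lt_one hA hdvd
    · rw [a₄_C]
      have hne : (P.a ^ P.p * P.c ^ P.p : ℤ) ≠ 0 :=
        mul_ne_zero (pow_ne_zero _ P.ha0) (pow_ne_zero _ P.hc0)
      have hchar : CharZero K := algebraRat.charZero K
      exact_mod_cast hne
  refine map_eq_self_of_mult A f hf D P.pp hp2 (valuation_p P hq hqp A hA)
    (r := ((P.a * P.c : ℤ) : ℚ)) ?_ hQ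
  rw [a₄_C, map_intCast (algebraMap ℚ K), ← map_pow]
  have : ((P.a ^ P.p * P.c ^ P.p : ℤ) : K) = (((P.a * P.c : ℤ) : K) ^ P.p) := by
    push_cast; ring
  rw [this]

include hq hq2 hqp hA in
/-- The `p`-torsion of the Frey curve is fixed by every automorphism acting trivially modulo
the maximal ideal of a valuation subring over `q`. -/
theorem frey_fixed (f : K →ₐ[ℚ] K) (hf : ∀ x ∈ A, A.valuation (f x - x) < 1)
    (P₀ : (P.freyCurve⁄K).Point) (hP₀ : P.p • P₀ = 0) :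
    Point.map (W' := P.freyCurve) f P₀ = P₀ := by
  rcases frey_cases P hq with h | ⟨h, _⟩ | ⟨h, _⟩
  · exact map_eq_self_of_model _ _ changeTwoAB (changeTwoAB_smul P) f P.p
      (frey_good_fixed P hq hq2 hqp A hA h f hf) P₀ hP₀
  · exact map_eq_self_of_model _ _ changeTwoAB (changeTwoAB_smul P) f P.p
      (frey_ab_fixed P hq hq2 hqp A hA h f hf) P₀ hP₀
  · exact map_eq_self_of_model _ _ (changeTwoC P) (changeTwoC_smul P) f P.p
      (frey_c_fixed P hq hq2 hqp A hA h f hf) P₀ hP₀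

end frey

end Fermat.Agent.S05
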