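import Fermat.Agent.S05.CompDefs
import Fermat.Agent.S05.AddFormula

set_option autoImplicit false

/-!
Basic properties of the component relation `Comp` in the multiplicative case of the S05
development (work package M2a): totality, behaviour under negation and under translation by the
two-torsion point `(0, 0)`.
-/

namespace Fermat.Agent.S05

open WeierstrassCurve WeierstrassCurve.Affine

section NoDec

variable {K : Type*} [Field K]

theorem MultData.valuation_a₄_ne_zero {A : ValuationSubring K} {W : Affine K} {γ : K}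
    (D : MultData A W γ) : A.valuation W.a₄ ≠ 0 :=
  (A.valuation.ne_zero_iff).mpr D.hb0

/-- the factorisation `(y - γ x) (y + γ x) = x (x² + a₄)` on the curve -/
theorem MultData.branch_mul {A : ValuationSubring K} {W : Affine K} {γ : K}
    (D : MultData A W γ) {x y : K} (h : W.Nonsingular x y) :
    (y - γ * x) * (y + γ * x) = x * (x ^ 2 + W.a₄) := by
  have E : y ^ 2 = x ^ 3 + W.a₂ * x ^ 2 + W.a₄ * x := (D.model.equation_iff _ _).mp h.1
  linear_combination E - x ^ 2 * D.hγ

theorem comp_total {A : ValuationSubring K} {W : Affine K} {γ : K} (D : MultData A W γ)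
    (P : W.Point) : ∃ g : A.ValueGroup, Comp A γ P g ∧ g ≠ 0 := by
  rcases P with _ | ⟨x, y, h⟩
  · exact ⟨1, rfl, one_ne_zero⟩
  · by_cases h1 : 1 ≤ A.valuation x
    · exact ⟨1, Or.inl ⟨h1, rfl⟩, one_ne_zero⟩
    by_cases hβ : A.valuation x ≤ A.valuation W.a₄
    · exact ⟨A.valuation W.a₄, Or.inr (Or.inl ⟨hβ, rfl⟩), D.valuation_a₄_ne_zero⟩
    rw [not_le] at h1 hβ
    have hxpos : 0 < A.valuation x := lt_of_le_of_lt zero_le hβ
    have hx0 : A.valuation x ≠ 0 := ne_of_gt hxpos
    by_cases hp : A.valuation (y - γ * x) < A.valuation x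
    · exact ⟨A.valuation x, Or.inr (Or.inr (Or.inl ⟨⟨hβ, h1, hp⟩, rfl⟩)), hx0⟩
    · refine ⟨(A.valuation x)⁻¹, Or.inr (Or.inr (Or.inr ⟨⟨hβ, h1, ?_⟩, rfl⟩)), inv_ne_zero hx0⟩
      by_contra hm
      rw [not_lt] at hp hm
      have hprod : A.valuation x * A.valuation x ≤
          A.valuation (y - γ * x) * A.valuation (y + γ * x) := mul_le_mul' hp hm
      have hfac : A.valuation (y - γ * x) * A.valuation (y + γ * x) =
          A.valuation x * A.valuation (x ^ 2 + W.a₄) := by
        rw [← map_mul, D.branch_mul h, map_mul]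
      rw [hfac] at hprod
      have hsq : A.valuation (x ^ 2) < A.valuation x := by
        rw [map_pow, pow_two]
        exact mul_lt_of_lt_one_right hxpos h1
      have hlt : A.valuation (x ^ 2 + W.a₄) < A.valuation x :=
        lt_of_le_of_lt (A.valuation.map_add_le_max' _ _) (max_lt hsq hβ)
      exact absurd hprod (not_le.mpr (mul_lt_mul_of_pos_left hlt hxpos))

theorem comp_neg {A : ValuationSubring K} {W : Affine K} {γ : K} (D : MultData A W γ)
    {P : W.Point} {g : A.ValueGroup} (hP : Comp A γ P g) :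
    ∃ m : ℤ, Comp A γ (-P) (g⁻¹ * A.valuation W.a₄ ^ (2 * m)) := by
  have hβ0 : A.valuation W.a₄ ≠ 0 := D.valuation_a₄_ne_zero
  rcases P with _ | ⟨x, y, h⟩
  · have hg : g = 1 := hP
    subst hg
    refine ⟨0, ?_⟩
    show (1 : A.ValueGroup)⁻¹ * A.valuation W.a₄ ^ (2 * (0 : ℤ)) = 1
    simp
  · rw [comp_some_iff] at hP
    rw [Point.neg_some]
    rcases hP with ⟨h1, hg⟩ | ⟨hβ, hg⟩ | ⟨⟨hb, h1, hp⟩, hg⟩ | ⟨⟨hb, h1, hm⟩, hg⟩
    · refine ⟨0, (comp_some_iff A γ _ _).mpr (Or.inl ⟨h1, ?_⟩)⟩
      rw [hg]; simp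
    · refine ⟨1, (comp_some_iff A γ _ _).mpr (Or.inr (Or.inl ⟨hβ, ?_⟩))⟩
      rw [hg, mul_one, zpow_two, inv_mul_cancel_left₀ hβ0]
    · refine ⟨0, (comp_some_iff A γ _ _).mpr (Or.inr (Or.inr (Or.inr ⟨⟨hb, h1, ?_⟩, ?_⟩)))⟩
      · rw [D.model.negY_eq]
        have : -y + γ * x = -(y - γ * x) := by ring
        rw [this, Valuation.map_neg]
        exact hp
      · rw [hg]; simp
    · refine ⟨0, (comp_some_iff A γ _ _).mpr (Or.inr (Or.inr (Or.inl ⟨⟨hb, h1, ?_⟩, ?_⟩)))⟩
      · rw [D.model.negY_eq]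
        have : -y - γ * x = -(y + γ * x) := by ring
        rw [this, Valuation.map_neg]
        exact hm
      · rw [hg]; simp

end NoDec

variable {K : Type*} [Field K] [DecidableEq K]

theorem comp_add_zeroZero {A : ValuationSubring K} {W : Affine K} {γ : K} (D : MultData A W γ)
    (hT : W.Nonsingular 0 0) {P : W.Point} {g : A.ValueGroup} (hP : Comp A γ P g) :
    ∃ m : ℤ, Comp A γ (P + Point.some 0 0 hT) (g * A.valuation W.a₄ ^ (2 * m + 1)) := by
  have hβ0 : A.valuation W.a₄ ≠ 0 := D.valuation_a₄_ne_zero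
  have hβpos : 0 < A.valuation W.a₄ := zero_lt_iff.mpr hβ0
  rcases P with _ | ⟨x, y, h⟩
  · have hg : g = 1 := hP
    subst hg
    refine ⟨0, ?_⟩
    show Comp A γ ((0 : W.Point) + Point.some 0 0 hT) _
    rw [zero_add, comp_some_iff]
    exact Or.inr (Or.inl ⟨by simp, by simp⟩)
  · by_cases hx : x = 0
    · subst hx
      have E := (D.model.equation_iff 0 y).mp h.1
      have hy : y = 0 := by simpa using E
      subst hy
      have hsum : Point.some 0 0 h + Point.some 0 0 hT = 0 :=
        Point.add_of_Y_eq rfl (by rw [D.model.negY_eq]; simp)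
      rw [hsum]
      rw [comp_some_iff] at hP
      have hg : g = A.valuation W.a₄ := by
        rcases hP with ⟨h1, _⟩ | ⟨_, hg⟩ | ⟨⟨hb, _, _⟩, _⟩ | ⟨⟨hb, _, _⟩, _⟩
        · simp at h1
        · exact hg
        · simp at hb
        · simp at hb
      refine ⟨-1, ?_⟩
      rw [comp_zero_iff, hg]
      have : (2 * (-1 : ℤ) + 1) = -1 := by norm_num
      rw [this, zpow_neg_one, mul_inv_cancel₀ hβ0]
    · obtain ⟨h', hsum⟩ := add_zeroZero_formula D.model h hx hT
      rw [hsum]
      rw [comp_some_iff] at hP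
      have hvx0 : A.valuation x ≠ 0 := (A.valuation.ne_zero_iff).mpr hx
      have hvxpos : 0 < A.valuation x := zero_lt_iff.mpr hvx0
      have hvx' : A.valuation (W.a₄ / x) = A.valuation W.a₄ / A.valuation x := map_div₀ _ _ _
      rcases hP with ⟨h1, hg⟩ | ⟨hβ, hg⟩ | ⟨⟨hb, h1, hp⟩, hg⟩ | ⟨⟨hb, h1, hm⟩, hg⟩
      · refine ⟨0, (comp_some_iff A γ _ _).mpr (Or.inr (Or.inl ⟨?_, ?_⟩))⟩
        · rw [hvx', div_le_iff₀ hvxpos]
          exact le_mul_of_one_le_right (le_of_lt hβpos) h1
        · rw [hg]; simp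
      · refine ⟨-1, (comp_some_iff A γ _ _).mpr (Or.inl ⟨?_, ?_⟩)⟩
        · rw [hvx', one_le_div₀ hvxpos]
          exact hβ
        · have : (2 * (-1 : ℤ) + 1) = -1 := by norm_num
          rw [hg, this, zpow_neg_one, mul_inv_cancel₀ hβ0]
      · refine ⟨-1, (comp_some_iff A γ _ _).mpr (Or.inr (Or.inr (Or.inr ⟨⟨?_, ?_, ?_⟩, ?_⟩)))⟩
        · rw [hvx', lt_div_iff₀ hvxpos]
          exact mul_lt_of_lt_one_right hβpos h1
        · rw [hvx', div_lt_one₀ hvxpos]
          exact hb
        · have : -(W.a₄ * y / x ^ 2) + γ * (W.a₄ / x) = -(W.a₄ / x ^ 2) * (y - γ * x) := by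
            field_simp
            ring
          rw [this, map_mul, Valuation.map_neg, hvx', map_div₀, map_pow]
          have h3 : A.valuation W.a₄ / A.valuation x ^ 2 * A.valuation (y - γ * x) <
              A.valuation W.a₄ / A.valuation x ^ 2 * A.valuation x :=
            mul_lt_mul_of_pos_left hp (div_pos hβpos (pow_pos hvxpos 2))
          refine lt_of_lt_of_eq h3 ?_
          field_simp
        · have : (2 * (-1 : ℤ) + 1) = -1 := by norm_num
          rw [hg, this, zpow_neg_one, hvx', inv_div, div_eq_mul_inv]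
      · refine ⟨0, (comp_some_iff A γ _ _).mpr (Or.inr (Or.inr (Or.inl ⟨⟨?_, ?_, ?_⟩, ?_⟩)))⟩
        · rw [hvx', lt_div_iff₀ hvxpos]
          exact mul_lt_of_lt_one_right hβpos h1
        · rw [hvx', div_lt_one₀ hvxpos]
          exact hb
        · have : -(W.a₄ * y / x ^ 2) - γ * (W.a₄ / x) = -(W.a₄ / x ^ 2) * (y + γ * x) := by
            field_simp
            ring
          rw [this, map_mul, Valuation.map_neg, hvx', map_div₀, map_pow]
          have h3 : A.valuation W.a₄ / A.valuation x ^ 2 * A.valuation (y + γ * x) <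
              A.valuation W.a₄ / A.valuation x ^ 2 * A.valuation x :=
            mul_lt_mul_of_pos_left hm (div_pos hβpos (pow_pos hvxpos 2))
          refine lt_of_lt_of_eq h3 ?_
          field_simp
        · rw [hg, hvx']
          simp [div_eq_mul_inv, mul_comm]

end Fermat.Agent.S05
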