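import Fermat.Agent.S05.Defs

set_option autoImplicit false

/-!
Definitions for the component analysis in the multiplicative case of the S05 development.
-/

namespace Fermat.Agent.S05

open WeierstrassCurve WeierstrassCurve.Affine

variable {K : Type*} [Field K]

/-- Standing hypotheses of the multiplicative case: `W : Y² = X³ + a₂ X² + a₄ X` with `a₂` a unit
of `A` having a square root `γ`, `a₄` a nonzero element of the maximal ideal, and `2` a unit. -/
structure MultData (A : ValuationSubring K) (W : Affine K) (γ : K) : Prop where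
  model : IsTwoModel W
  ha : A.valuation W.a₂ = 1
  hb : A.valuation W.a₄ < 1
  hb0 : W.a₄ ≠ 0
  h2 : A.valuation (2 : K) = 1
  hγ : γ ^ 2 = W.a₂

/-- The affine point `(x, y)` is close to the node, on the branch `y/x ≡ γ`. -/
def MidPlus (A : ValuationSubring K) (W : Affine K) (γ : K) (x y : K) : Prop :=
  A.valuation W.a₄ < A.valuation x ∧ A.valuation x < 1 ∧
    A.valuation (y - γ * x) < A.valuation x

/-- The affine point `(x, y)` is close to the node, on the branch `y/x ≡ -γ`. -/
def MidMinus (A : ValuationSubring K) (W : Affine K) (γ : K) (x y : K) : Prop :=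
  A.valuation W.a₄ < A.valuation x ∧ A.valuation x < 1 ∧
    A.valuation (y + γ * x) < A.valuation x

/-- `Comp A γ P g`: the point `P` has component value `g` (well defined modulo `v(a₄)²`):
`1` on the identity component, `v(a₄)` on the component of `(0,0)`, `v(x)` resp. `v(x)⁻¹`
on the two branches through the node. -/
def Comp (A : ValuationSubring K) (γ : K) {W : Affine K} (P : W.Point)
    (g : A.ValueGroup) : Prop :=
  match P with
  | .zero => g = 1
  | .some x y _ =>
      (1 ≤ A.valuation x ∧ g = 1) ∨
      (A.valuation x ≤ A.valuation W.a₄ ∧ g = A.valuation W.a₄) ∨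
      (MidPlus A W γ x y ∧ g = A.valuation x) ∨
      (MidMinus A W γ x y ∧ g = (A.valuation x)⁻¹)

theorem comp_zero_iff (A : ValuationSubring K) (γ : K) {W : Affine K} (g : A.ValueGroup) :
    Comp A γ (0 : W.Point) g ↔ g = 1 := Iff.rfl

theorem comp_some_iff (A : ValuationSubring K) (γ : K) {W : Affine K} {x y : K}
    (h : W.Nonsingular x y) (g : A.ValueGroup) :
    Comp A γ (Point.some x y h) g ↔
      (1 ≤ A.valuation x ∧ g = 1) ∨
      (A.valuation x ≤ A.valuation W.a₄ ∧ g = A.valuation W.a₄) ∨
      (MidPlus A W γ x y ∧ g = A.valuation x) ∨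
      (MidMinus A W γ x y ∧ g = (A.valuation x)⁻¹) := Iff.rfl

end Fermat.Agent.S05
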