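import Fermat.Agent.S05.CompDefs
import Fermat.Agent.S05.AddFormula

set_option autoImplicit false

/-!
Work package M2d of the S05 development: the sum of a point on the `+` branch through the node
and a point on the `-` branch has component value `v x₁ / v x₂`.
-/

namespace Fermat.Agent.S05

section Core

variable {K : Type*} [Field K] {Γ₀ : Type*} [LinearOrderedCommGroupWithZero Γ₀]
  (v : Valuation K Γ₀)

/-- The numerator `y₁ x₂ - y₂ x₁` has valuation `v x₁ * v x₂` when the two points are on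
opposite branches. -/
theorem CompOpp.val_num {γ x₁ y₁ x₂ y₂ : K} (hγ : v γ = 1) (h2 : v (2 : K) = 1)
    (hx₁ : 0 < v x₁) (hx₂ : 0 < v x₂)
    (he₁ : v (y₁ - γ * x₁) < v x₁) (he₂ : v (y₂ + γ * x₂) < v x₂) :
    v (y₁ * x₂ - y₂ * x₁) = v x₁ * v x₂ := by
  have h : y₁ * x₂ - y₂ * x₁ =
      2 * γ * x₁ * x₂ + ((y₁ - γ * x₁) * x₂ - (y₂ + γ * x₂) * x₁) := by ring
  have hmain : v (2 * γ * x₁ * x₂) = v x₁ * v x₂ := by
    rw [map_mul, map_mul, map_mul, h2, hγ, one_mul, one_mul]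
  have hsmall : v ((y₁ - γ * x₁) * x₂ - (y₂ + γ * x₂) * x₁) < v x₁ * v x₂ := by
    apply Valuation.map_sub_lt
    · rw [map_mul]
      exact mul_lt_mul_of_pos_right he₁ hx₂
    · rw [map_mul, mul_comm (v x₁)]
      exact mul_lt_mul_of_pos_right he₂ hx₁
  rw [h, Valuation.map_add_eq_of_lt_left v (by rw [hmain]; exact hsmall), hmain]

/-- Branch estimate: if `d ν x₁ x₂ = x₃ (e ν xa + ν² xb - b x₁ x₂)` with all three
terms small, then `v d < v x₃`. -/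
theorem CompOpp.branch_lt {b x₁ x₂ x₃ ν e xa xb d : K}
    (hx₁ : 0 < v x₁) (hx₂ : 0 < v x₂) (hν : 0 < v ν) (hx₃ : 0 < v x₃)
    (H : d * ν * x₁ * x₂ = x₃ * (e * ν * xa + ν ^ 2 * xb - b * x₁ * x₂))
    (h1 : v e * v xa < v x₁ * v x₂)
    (h2 : v ν * v xb < v x₁ * v x₂)
    (h3 : v b < v ν) :
    v d < v x₃ := by
  have hpos : 0 < v ν * v x₁ * v x₂ := mul_pos (mul_pos hν hx₁) hx₂
  have hin : v (e * ν * xa + ν ^ 2 * xb - b * x₁ * x₂) < v ν * v x₁ * v x₂ := by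
    apply Valuation.map_sub_lt
    · apply Valuation.map_add_lt
      · rw [map_mul, map_mul, mul_comm (v e), mul_assoc, mul_assoc]
        exact mul_lt_mul_of_pos_left h1 hν
      · rw [map_mul, map_pow, pow_two, mul_assoc, mul_assoc]
        exact mul_lt_mul_of_pos_left h2 hν
    · rw [map_mul, map_mul]
      exact mul_lt_mul_of_pos_right (mul_lt_mul_of_pos_right h3 hx₁) hx₂
  have hv : v d * (v ν * v x₁ * v x₂) =
      v x₃ * v (e * ν * xa + ν ^ 2 * xb - b * x₁ * x₂) := by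
    rw [← map_mul, ← map_mul, ← map_mul, ← map_mul, ← H]
    congr 1; ring
  have : v d * (v ν * v x₁ * v x₂) < v x₃ * (v ν * v x₁ * v x₂) := by
    rw [hv]
    exact mul_lt_mul_of_pos_left hin hx₃
  exact lt_of_mul_lt_mul_right this (le_of_lt hpos)

/-- Core valuation computation for the sum of a point on the `+` branch and a point on the
`-` branch. -/
theorem CompOpp.core {γ b x₁ y₁ x₂ y₂ x₃ y₃ ν : K} (hγ : v γ = 1) (h2 : v (2 : K) = 1)
    (hb₁ : v b < v x₁) (hx₁ : v x₁ < 1) (he₁ : v (y₁ - γ * x₁) < v x₁)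
    (hb₂ : v b < v x₂) (hx₂ : v x₂ < 1) (he₂ : v (y₂ + γ * x₂) < v x₂)
    (N1 : ν * (x₂ - x₁) = y₁ * x₂ - y₂ * x₁)
    (X3 : x₃ * (x₁ * x₂) = ν ^ 2)
    (Y3 : y₃ * ν * x₁ * x₂ = x₃ * (y₂ * ν * x₁ + ν ^ 2 * x₂ - b * x₁ * x₂)) :
    (1 ≤ v x₃ ∧ v x₁ * (v x₂)⁻¹ = 1) ∨
    ((v b < v x₃ ∧ v x₃ < 1 ∧ v (y₃ - γ * x₃) < v x₃) ∧ v x₁ * (v x₂)⁻¹ = v x₃) ∨
    ((v b < v x₃ ∧ v x₃ < 1 ∧ v (y₃ + γ * x₃) < v x₃) ∧ v x₁ * (v x₂)⁻¹ = (v x₃)⁻¹) := by
  have p₁ : 0 < v x₁ := lt_of_le_of_lt zero_le hb₁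
  have p₂ : 0 < v x₂ := lt_of_le_of_lt zero_le hb₂
  have hnum := CompOpp.val_num v hγ h2 p₁ p₂ he₁ he₂
  have hN : v ν * v (x₂ - x₁) = v x₁ * v x₂ := by rw [← map_mul, N1, hnum]
  have pν : 0 < v ν := by
    rcases eq_or_lt_of_le (zero_le : (0 : Γ₀) ≤ v ν) with h | h
    · rw [← h, zero_mul] at hN
      exact absurd hN (mul_pos p₁ p₂).ne
    · exact h
  have hX : v x₃ * (v x₁ * v x₂) = v ν ^ 2 := by rw [← map_mul, ← map_mul, X3, map_pow]
  have p₃ : 0 < v x₃ := by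
    rcases eq_or_lt_of_le (zero_le : (0 : Γ₀) ≤ v x₃) with h | h
    · rw [← h, zero_mul] at hX
      exact absurd hX (pow_pos pν 2).ne
    · exact h
  rcases lt_trichotomy (v x₁) (v x₂) with hlt | heq | hgt
  · -- `v x₁ < v x₂`: the sum is on the `+` branch
    right; left
    have hd : v (x₂ - x₁) = v x₂ := Valuation.map_sub_eq_of_lt_left v hlt
    have hν : v ν = v x₁ := by
      rw [hd] at hN
      exact mul_right_cancel₀ p₂.ne' hN
    have hx3 : v x₃ * v x₂ = v x₁ := by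
      rw [hν, pow_two, ← mul_assoc, mul_comm (v x₃) (v x₁), mul_assoc] at hX
      exact mul_left_cancel₀ p₁.ne' hX
    have hx3' : v x₁ * (v x₂)⁻¹ = v x₃ := by
      rw [← hx3, mul_assoc, mul_inv_cancel₀ p₂.ne', mul_one]
    have hlt1 : v x₃ < 1 := by
      have : v x₃ * v x₂ < 1 * v x₂ := by rw [hx3, one_mul]; exact hlt
      exact lt_of_mul_lt_mul_right this (le_of_lt p₂)
    have hgtb : v b < v x₃ := by
      have : v x₃ * v x₂ < v x₃ * 1 := mul_lt_mul_of_pos_left hx₂ p₃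
      rw [hx3, mul_one] at this
      exact lt_trans hb₁ this
    refine ⟨⟨hgtb, hlt1, ?_⟩, hx3'⟩
    -- symmetric formula
    have Y3' : (y₃ - γ * x₃) * ν * x₁ * x₂ =
        x₃ * ((y₁ - γ * x₁) * ν * x₂ + ν ^ 2 * x₁ - b * x₁ * x₂) := by
      linear_combination Y3 + x₃ * ν * N1
    refine CompOpp.branch_lt v p₁ p₂ pν p₃ Y3' ?_ ?_ ?_
    · exact mul_lt_mul_of_pos_right he₁ p₂
    · rw [hν]
      exact mul_lt_mul_of_pos_left hlt p₁
    · rw [hν]; exact hb₁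
  · -- `v x₁ = v x₂`: the sum is on the identity component
    left
    refine ⟨?_, by rw [heq, mul_inv_cancel₀ p₂.ne']⟩
    have hd : v (x₂ - x₁) ≤ v x₁ := Valuation.map_sub_le v (le_of_eq heq.symm) le_rfl
    have hν : v x₁ ≤ v ν := by
      by_contra hcon
      have hcon := not_le.mp hcon
      have h1 : v ν * v (x₂ - x₁) ≤ v ν * v x₁ := mul_le_mul' le_rfl hd
      have h2 : v ν * v x₁ < v x₁ * v x₁ := mul_lt_mul_of_pos_right hcon p₁
      rw [hN, ← heq] at h1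
      exact absurd (lt_of_le_of_lt h1 h2) (lt_irrefl _)
    have : 1 * (v x₁ * v x₂) ≤ v x₃ * (v x₁ * v x₂) := by
      rw [hX, one_mul, ← heq, pow_two]
      exact mul_le_mul' hν hν
    exact le_of_mul_le_mul_right this (mul_pos p₁ p₂)
  · -- `v x₂ < v x₁`: the sum is on the `-` branch
    right; right
    have hd : v (x₂ - x₁) = v x₁ := Valuation.map_sub_eq_of_lt_right v hgt
    have hν : v ν = v x₂ := by
      rw [hd, mul_comm (v x₁)] at hN
      exact mul_right_cancel₀ p₁.ne' hN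
    have hx3 : v x₃ * v x₁ = v x₂ := by
      rw [hν, pow_two, mul_comm (v x₁), ← mul_assoc, mul_comm (v x₃) (v x₂), mul_assoc] at hX
      exact mul_left_cancel₀ p₂.ne' hX
    have hx3' : v x₁ * (v x₂)⁻¹ = (v x₃)⁻¹ := by
      rw [← hx3, mul_inv, mul_comm (v x₃)⁻¹, ← mul_assoc, mul_inv_cancel₀ p₁.ne', one_mul]
    have hlt1 : v x₃ < 1 := by
      have : v x₃ * v x₁ < 1 * v x₁ := by rw [hx3, one_mul]; exact hgt
      exact lt_of_mul_lt_mul_right this (le_of_lt p₁)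
    have hgtb : v b < v x₃ := by
      have : v x₃ * v x₁ < v x₃ * 1 := mul_lt_mul_of_pos_left hx₁ p₃
      rw [hx3, mul_one] at this
      exact lt_trans hb₂ this
    refine ⟨⟨hgtb, hlt1, ?_⟩, hx3'⟩
    have Y3' : (y₃ + γ * x₃) * ν * x₁ * x₂ =
        x₃ * ((y₂ + γ * x₂) * ν * x₁ + ν ^ 2 * x₂ - b * x₁ * x₂) := by
      linear_combination Y3
    refine CompOpp.branch_lt v p₁ p₂ pν p₃ Y3' ?_ ?_ ?_
    · rw [mul_comm (v x₁)]
      exact mul_lt_mul_of_pos_right he₂ p₁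
    · rw [hν, mul_comm (v x₁)]
      exact mul_lt_mul_of_pos_left hgt p₂
    · rw [hν]; exact hb₂

end Core


open WeierstrassCurve WeierstrassCurve.Affine

variable {K : Type*} [Field K] [DecidableEq K]

theorem comp_add_PM {A : ValuationSubring K} {W : Affine K} {γ : K} (D : MultData A W γ)
    {x₁ y₁ x₂ y₂ : K} (h₁ : W.Nonsingular x₁ y₁) (h₂ : W.Nonsingular x₂ y₂)
    (hP₁ : MidPlus A W γ x₁ y₁) (hP₂ : MidMinus A W γ x₂ y₂) :
    Comp A γ (Point.some x₁ y₁ h₁ + Point.some x₂ y₂ h₂)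
      (A.valuation x₁ * (A.valuation x₂)⁻¹) := by
  obtain ⟨hb₁, hx₁, he₁⟩ := hP₁
  obtain ⟨hb₂, hx₂, he₂⟩ := hP₂
  have p₁ : 0 < A.valuation x₁ := lt_of_le_of_lt zero_le hb₁
  have p₂ : 0 < A.valuation x₂ := lt_of_le_of_lt zero_le hb₂
  have hx₁0 : x₁ ≠ 0 := (Valuation.pos_iff _).mp p₁
  have hx₂0 : x₂ ≠ 0 := (Valuation.pos_iff _).mp p₂
  have hγ : A.valuation γ = 1 := by
    have h : A.valuation γ ^ 2 = 1 := by rw [← map_pow, D.hγ, D.ha]
    exact (pow_eq_one_iff_of_nonneg zero_le two_ne_zero).mp h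
  by_cases hne : x₁ = x₂ ∧ y₁ = -y₂
  · obtain ⟨hx, hy⟩ := hne
    rw [Point.add_of_Y_eq hx (by rw [D.model.negY_eq]; exact hy)]
    rw [comp_zero_iff, hx, mul_inv_cancel₀ p₂.ne']
  · obtain ⟨x₃, y₃, ν, h₃, hsum, N1, -, X3, Y3⟩ :=
      add_formula D.model h₁ h₂ hx₁0 hx₂0 hne
    rw [hsum, comp_some_iff]
    rcases CompOpp.core A.valuation hγ D.h2 hb₁ hx₁ he₁ hb₂ hx₂ he₂ N1 X3 Y3 with
      h | h | h
    · exact Or.inl h
    · exact Or.inr (Or.inr (Or.inl h))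
    · exact Or.inr (Or.inr (Or.inr h))

end Fermat.Agent.S05
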