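import Fermat.Agent.S05.CompDefs
import Fermat.Agent.S05.AddFormula

set_option autoImplicit false

/-!
Work package M2c of the S05 development: the sum of two points on the `+` branch through the
node has component value `v x₁ * v x₂` modulo even powers of `v a₄`.
-/

namespace Fermat.Agent.S05

section Core

variable {K : Type*} [Field K] {Γ₀ : Type*} [LinearOrderedCommGroupWithZero Γ₀]
  (v : Valuation K Γ₀)

/-- The sum `y₁ x₂ + y₂ x₁` has valuation `v x₁ * v x₂` when the two points are on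
the same (`+`) branch. -/
theorem CompSame.val_den {γ x₁ y₁ x₂ y₂ : K} (hγ : v γ = 1) (h2 : v (2 : K) = 1)
    (hx₁ : 0 < v x₁) (hx₂ : 0 < v x₂)
    (he₁ : v (y₁ - γ * x₁) < v x₁) (he₂ : v (y₂ - γ * x₂) < v x₂) :
    v (y₁ * x₂ + y₂ * x₁) = v x₁ * v x₂ := by
  have h : y₁ * x₂ + y₂ * x₁ =
      2 * γ * x₁ * x₂ + ((y₁ - γ * x₁) * x₂ + (y₂ - γ * x₂) * x₁) := by ring
  have hmain : v (2 * γ * x₁ * x₂) = v x₁ * v x₂ := by
    rw [map_mul, map_mul, map_mul, h2, hγ, one_mul, one_mul]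
  have hsmall : v ((y₁ - γ * x₁) * x₂ + (y₂ - γ * x₂) * x₁) < v x₁ * v x₂ := by
    apply Valuation.map_add_lt
    · rw [map_mul]
      exact mul_lt_mul_of_pos_right he₁ hx₂
    · rw [map_mul, mul_comm (v x₁)]
      exact mul_lt_mul_of_pos_right he₂ hx₁
  rw [h, Valuation.map_add_eq_of_lt_left v (by rw [hmain]; exact hsmall), hmain]

/-- Branch estimate: if `d ν x₁ x₂ = x₃ (t₁ + t₂ - t₃)` with all three
terms of valuation less than `v ν * v x₁ * v x₂`, then `v d < v x₃`. -/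
theorem CompSame.branch_lt {x₁ x₂ x₃ ν t₁ t₂ t₃ d : K}
    (hx₁ : 0 < v x₁) (hx₂ : 0 < v x₂) (hν : 0 < v ν) (hx₃ : 0 < v x₃)
    (H : d * ν * x₁ * x₂ = x₃ * (t₁ + t₂ - t₃))
    (h1 : v t₁ < v ν * v x₁ * v x₂)
    (h2 : v t₂ < v ν * v x₁ * v x₂)
    (h3 : v t₃ < v ν * v x₁ * v x₂) :
    v d < v x₃ := by
  have hpos : 0 < v ν * v x₁ * v x₂ := mul_pos (mul_pos hν hx₁) hx₂
  have hin : v (t₁ + t₂ - t₃) < v ν * v x₁ * v x₂ :=
    Valuation.map_sub_lt v (Valuation.map_add_lt v h1 h2) h3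
  have hv : v d * (v ν * v x₁ * v x₂) = v x₃ * v (t₁ + t₂ - t₃) := by
    rw [← map_mul, ← map_mul, ← map_mul, ← map_mul, ← H]
    congr 1; ring
  have : v d * (v ν * v x₁ * v x₂) < v x₃ * (v ν * v x₁ * v x₂) := by
    rw [hv]
    exact mul_lt_mul_of_pos_left hin hx₃
  exact lt_of_mul_lt_mul_right this (le_of_lt hpos)

/-- Core valuation computation for the sum of two points on the `+` branch. -/
theorem CompSame.core {γ b x₁ y₁ x₂ y₂ x₃ y₃ ν : K} (hγ : v γ = 1) (h2 : v (2 : K) = 1)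
    (hb0 : b ≠ 0)
    (hb₁ : v b < v x₁) (hx₁ : v x₁ < 1) (he₁ : v (y₁ - γ * x₁) < v x₁)
    (hb₂ : v b < v x₂) (hx₂ : v x₂ < 1) (he₂ : v (y₂ - γ * x₂) < v x₂)
    (N2 : ν * (y₁ * x₂ + y₂ * x₁) = (b - x₁ * x₂) * (x₁ * x₂))
    (X3 : x₃ * (x₁ * x₂) = ν ^ 2)
    (Y3 : y₃ * ν * x₁ * x₂ = x₃ * (y₂ * ν * x₁ + ν ^ 2 * x₂ - b * x₁ * x₂)) :
    (v x₃ ≤ v b ∧ v x₁ * v x₂ = v b) ∨
    ((v b < v x₃ ∧ v x₃ < 1 ∧ v (y₃ - γ * x₃) < v x₃) ∧ v x₁ * v x₂ = v x₃) ∨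
    ((v b < v x₃ ∧ v x₃ < 1 ∧ v (y₃ + γ * x₃) < v x₃) ∧
      v x₁ * v x₂ * ((v b) ^ 2)⁻¹ = (v x₃)⁻¹) := by
  have pb : 0 < v b := (Valuation.pos_iff v).mpr hb0
  have p₁ : 0 < v x₁ := lt_trans pb hb₁
  have p₂ : 0 < v x₂ := lt_trans pb hb₂
  have p₁₂ : 0 < v x₁ * v x₂ := mul_pos p₁ p₂
  have hden := CompSame.val_den v hγ h2 p₁ p₂ he₁ he₂
  -- `v ν = v (b - x₁ x₂)`
  have hν : v ν = v (b - x₁ * x₂) := by
    have h : v ν * (v x₁ * v x₂) = v (b - x₁ * x₂) * (v x₁ * v x₂) := by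
      rw [← hden, ← map_mul, N2, map_mul, map_mul, hden]
    exact mul_right_cancel₀ p₁₂.ne' h
  have hX : v x₃ * (v x₁ * v x₂) = v ν ^ 2 := by rw [← map_mul, ← map_mul, X3, map_pow]
  rcases lt_trichotomy (v x₁ * v x₂) (v b) with hlt | heq | hgt
  · -- `v x₁ * v x₂ < v b`: the sum is on the `-` branch
    right; right
    have hνb : v ν = v b := by
      rw [hν]
      exact Valuation.map_sub_eq_of_lt_left v (by rw [map_mul]; exact hlt)
    have pν : 0 < v ν := hνb ▸ pb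
    have hX' : v x₃ * (v x₁ * v x₂) = v b ^ 2 := by rw [hX, hνb]
    have p₃ : 0 < v x₃ := by
      rcases eq_or_lt_of_le (zero_le : (0 : Γ₀) ≤ v x₃) with h | h
      · rw [← h, zero_mul] at hX'
        exact absurd hX' (pow_pos pb 2).ne
      · exact h
    have hgtb : v b < v x₃ := by
      have : v b * (v x₁ * v x₂) < v x₃ * (v x₁ * v x₂) := by
        rw [hX', pow_two]
        exact mul_lt_mul_of_pos_left hlt pb
      exact lt_of_mul_lt_mul_right this (le_of_lt p₁₂)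
    have hlt1 : v x₃ < 1 := by
      have hbb : v b ^ 2 < v x₁ * v x₂ := by
        rw [pow_two]
        exact mul_lt_mul'' hb₁ hb₂ zero_le zero_le
      have : v x₃ * (v x₁ * v x₂) < 1 * (v x₁ * v x₂) := by
        rw [hX', one_mul]; exact hbb
      exact lt_of_mul_lt_mul_right this (le_of_lt p₁₂)
    have hval : v x₁ * v x₂ * ((v b) ^ 2)⁻¹ = (v x₃)⁻¹ := by
      rw [← hX', mul_inv, mul_comm (v x₃)⁻¹, ← mul_assoc, mul_inv_cancel₀ p₁₂.ne', one_mul]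
    refine ⟨⟨hgtb, hlt1, ?_⟩, hval⟩
    have Y3' : (y₃ + γ * x₃) * ν * x₁ * x₂ =
        x₃ * (ν ^ 2 * x₂ + (-(x₁ * x₂) ^ 2) - ν * x₂ * (y₁ - γ * x₁)) := by
      linear_combination Y3 + x₃ * N2
    refine CompSame.branch_lt v p₁ p₂ pν p₃ Y3' ?_ ?_ ?_
    · -- `v (ν² x₂) = β² u₂ < β u₁ u₂`
      rw [map_mul, map_pow, pow_two, mul_assoc (v ν) (v x₁), mul_assoc (v ν) (v ν)]
      apply mul_lt_mul_of_pos_left _ pν
      rw [hνb]
      exact mul_lt_mul_of_pos_right hb₁ p₂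
    · -- `v ((x₁ x₂)²) = (u₁ u₂)² < β u₁ u₂`
      rw [Valuation.map_neg, map_pow, map_mul, pow_two, hνb, mul_assoc (v b)]
      exact mul_lt_mul_of_pos_right hlt p₁₂
    · -- `v (ν x₂ e₁) = β u₂ v(e₁) < β u₁ u₂`
      rw [map_mul, map_mul, mul_assoc (v ν) (v x₁), mul_assoc (v ν) (v x₂)]
      apply mul_lt_mul_of_pos_left _ pν
      rw [mul_comm (v x₂)]
      exact mul_lt_mul_of_pos_right he₁ p₂
  · -- `v x₁ * v x₂ = v b`: the sum is on the component of `(0, 0)`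
    left
    refine ⟨?_, heq⟩
    have hνb : v ν ≤ v b := by
      rw [hν]
      exact Valuation.map_sub_le v le_rfl (by rw [map_mul, heq])
    have : v x₃ * (v x₁ * v x₂) ≤ v b * (v x₁ * v x₂) := by
      rw [hX, heq, pow_two]
      exact mul_le_mul' hνb hνb
    exact le_of_mul_le_mul_right this p₁₂
  · -- `v b < v x₁ * v x₂`: the sum is on the `+` branch
    right; left
    have hνb : v ν = v x₁ * v x₂ := by
      rw [hν, ← map_mul]
      exact Valuation.map_sub_eq_of_lt_right v (by rw [map_mul]; exact hgt)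
    have pν : 0 < v ν := hνb ▸ p₁₂
    have hx3 : v x₃ = v x₁ * v x₂ := by
      have : v x₃ * (v x₁ * v x₂) = (v x₁ * v x₂) * (v x₁ * v x₂) := by
        rw [hX, hνb, pow_two]
      exact mul_right_cancel₀ p₁₂.ne' this
    have p₃ : 0 < v x₃ := hx3 ▸ p₁₂
    have hlt1 : v x₃ < 1 := by
      rw [hx3]
      exact mul_lt_one_of_nonneg_of_lt_one_left zero_le hx₁ (le_of_lt hx₂)
    refine ⟨⟨hx3 ▸ hgt, hlt1, ?_⟩, hx3.symm⟩
    have Y3' : (y₃ - γ * x₃) * ν * x₁ * x₂ =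
        x₃ * ((y₂ - γ * x₂) * ν * x₁ + ν ^ 2 * x₂ - b * x₁ * x₂) := by
      linear_combination Y3
    refine CompSame.branch_lt v p₁ p₂ pν p₃ Y3' ?_ ?_ ?_
    · -- `v (e₂ ν x₁) = v(e₂) ν u₁ < ν u₁ u₂`
      rw [map_mul, map_mul, mul_comm (v (y₂ - γ * x₂)), mul_assoc (v ν) (v x₁),
        mul_assoc (v ν) _ (v x₁)]
      apply mul_lt_mul_of_pos_left _ pν
      rw [mul_comm (v x₁)]
      exact mul_lt_mul_of_pos_right he₂ p₁
    · -- `v (ν² x₂) = ν ν u₂ < ν u₁ u₂` since `v ν = u₁ u₂ < u₁`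
      rw [map_mul, map_pow, pow_two, mul_assoc (v ν) (v x₁), mul_assoc (v ν) (v ν)]
      apply mul_lt_mul_of_pos_left _ pν
      apply mul_lt_mul_of_pos_right _ p₂
      rw [hνb]
      exact mul_lt_of_lt_one_right p₁ hx₂
    · -- `v (b x₁ x₂) = β u₁ u₂ < ν u₁ u₂`
      rw [map_mul, map_mul]
      apply mul_lt_mul_of_pos_right _ p₂
      apply mul_lt_mul_of_pos_right _ p₁
      rw [hνb]; exact hgt

end Core

open WeierstrassCurve WeierstrassCurve.Affine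

variable {K : Type*} [Field K] [DecidableEq K]

theorem comp_add_PP {A : ValuationSubring K} {W : Affine K} {γ : K} (D : MultData A W γ)
    {x₁ y₁ x₂ y₂ : K} (h₁ : W.Nonsingular x₁ y₁) (h₂ : W.Nonsingular x₂ y₂)
    (hP₁ : MidPlus A W γ x₁ y₁) (hP₂ : MidPlus A W γ x₂ y₂) :
    ∃ m : ℤ, Comp A γ (Point.some x₁ y₁ h₁ + Point.some x₂ y₂ h₂)
      (A.valuation x₁ * A.valuation x₂ * A.valuation W.a₄ ^ (2 * m)) := by
  obtain ⟨hb₁, hx₁, he₁⟩ := hP₁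
  obtain ⟨hb₂, hx₂, he₂⟩ := hP₂
  have p₁ : 0 < A.valuation x₁ := lt_of_le_of_lt zero_le hb₁
  have p₂ : 0 < A.valuation x₂ := lt_of_le_of_lt zero_le hb₂
  have hx₁0 : x₁ ≠ 0 := (Valuation.pos_iff _).mp p₁
  have hx₂0 : x₂ ≠ 0 := (Valuation.pos_iff _).mp p₂
  have hγ : A.valuation γ = 1 := by
    have h : A.valuation γ ^ 2 = 1 := by rw [← map_pow, D.hγ, D.ha]
    exact (pow_eq_one_iff_of_nonneg zero_le two_ne_zero).mp h
  have hne : ¬(x₁ = x₂ ∧ y₁ = -y₂) := by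
    rintro ⟨hx, hy⟩
    -- `2 γ x₁ = -((y₁ - γ x₁) + (y₂ - γ x₂))` has valuation `v x₁`, but both summands are smaller
    have h : 2 * γ * x₁ = -((y₁ - γ * x₁) + (y₂ - γ * x₂)) := by
      rw [hy, ← hx]; ring
    have hv : A.valuation (2 * γ * x₁) = A.valuation x₁ := by
      rw [map_mul, map_mul, D.h2, hγ, one_mul, one_mul]
    have hlt : A.valuation (-((y₁ - γ * x₁) + (y₂ - γ * x₂))) < A.valuation x₁ := by
      rw [Valuation.map_neg]
      exact Valuation.map_add_lt _ he₁ (hx ▸ he₂)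
    rw [← h, hv] at hlt
    exact lt_irrefl _ hlt
  obtain ⟨x₃, y₃, ν, h₃, hsum, -, N2, X3, Y3⟩ :=
    add_formula D.model h₁ h₂ hx₁0 hx₂0 hne
  rw [hsum]
  rcases CompSame.core A.valuation hγ D.h2 D.hb0 hb₁ hx₁ he₁ hb₂ hx₂ he₂ N2 X3 Y3 with
    h | h | h
  · refine ⟨0, ?_⟩
    rw [comp_some_iff, mul_zero, zpow_zero, mul_one]
    exact Or.inr (Or.inl ⟨h.1, h.2⟩)
  · refine ⟨0, ?_⟩
    rw [comp_some_iff, mul_zero, zpow_zero, mul_one]
    exact Or.inr (Or.inr (Or.inl h))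
  · refine ⟨-1, ?_⟩
    have hz : A.valuation W.a₄ ^ (2 * (-1 : ℤ)) = ((A.valuation W.a₄) ^ 2)⁻¹ := by
      rw [show (2 * (-1 : ℤ)) = -((2 : ℕ) : ℤ) by norm_num, zpow_neg, zpow_natCast]
    rw [comp_some_iff, hz]
    exact Or.inr (Or.inr (Or.inr h))

end Fermat.Agent.S05
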