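import Fermat.Agent.S05.CompDefs
import Fermat.Agent.S05.AddFormula
import Fermat.Agent.S05.CompBasic
import Fermat.Agent.S05.CompOpp
import Fermat.Agent.S05.CompSame
import Fermat.Agent.S05.CompIdent

set_option autoImplicit false
set_option linter.unusedSectionVars false

/-!
Assembly of the component homomorphism in the multiplicative case.
-/

namespace Fermat.Agent.S05

open WeierstrassCurve WeierstrassCurve.Affine

variable {K : Type*} [Field K] [DecidableEq K]

variable {A : ValuationSubring K} {W : Affine K} {γ : K}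

theorem MultData.beta_ne_zero (D : MultData A W γ) : A.valuation W.a₄ ≠ 0 :=
  (Valuation.ne_zero_iff _).mpr D.hb0

theorem MultData.nonsingular_zeroZero (D : MultData A W γ) : W.Nonsingular 0 0 := by
  rw [Affine.nonsingular_zero]
  exact ⟨D.model.a₆, Or.inr D.hb0⟩

theorem MultData.negY (D : MultData A W γ) (x y : K) : W.negY x y = -y := by
  simp [Affine.negY, D.model.a₁, D.model.a₃]

theorem neg_some_eq (D : MultData A W γ) {x y : K} (h : W.Nonsingular x y) :
    ∃ h' : W.Nonsingular x (-y), -Point.some x y h = Point.some x (-y) h' := by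
  have h1 : W.Nonsingular x (W.negY x y) := (Affine.nonsingular_neg ..).mpr h
  have h2 : W.negY x y = -y := D.negY x y
  refine ⟨h2 ▸ h1, ?_⟩
  rw [Point.neg_some]
  congr 1

theorem midPlus_neg {x y : K} (h : MidMinus A W γ x y) : MidPlus A W γ x (-y) := by
  obtain ⟨h1, h2, h3⟩ := h
  refine ⟨h1, h2, ?_⟩
  have : -y - γ * x = -(y + γ * x) := by ring
  rw [this, Valuation.map_neg]
  exact h3

theorem midMinus_neg {x y : K} (h : MidPlus A W γ x y) : MidMinus A W γ x (-y) := by
  obtain ⟨h1, h2, h3⟩ := h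
  refine ⟨h1, h2, ?_⟩
  have : -y + γ * x = -(y - γ * x) := by ring
  rw [this, Valuation.map_neg]
  exact h3

/-- The point lies on the component of `(0,0)`. -/
def IsT (A : ValuationSubring K) {W : Affine K} : W.Point → Prop
  | .zero => False
  | .some x _ _ => A.valuation x ≤ A.valuation W.a₄

/-- transfer of a component value along negation of both summands -/
theorem comp_of_neg_add_neg (D : MultData A W γ) {P Q : W.Point} {h : A.ValueGroup}
    (hc : Comp A γ (-P + -Q) h) :
    ∃ m : ℤ, Comp A γ (P + Q) (h⁻¹ * A.valuation W.a₄ ^ (2 * m)) := by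
  obtain ⟨m, hm⟩ := comp_neg D hc
  refine ⟨m, ?_⟩
  have : -(-P + -Q) = P + Q := by
    rw [neg_add, neg_neg, neg_neg]
  rwa [this] at hm

theorem comp_add_core (D : MultData A W γ) {P Q : W.Point} {g g' : A.ValueGroup}
    (hP : Comp A γ P g) (hQ : Comp A γ Q g') (hPT : ¬IsT A P) (hQT : ¬IsT A Q) :
    ∃ m : ℤ, Comp A γ (P + Q) (g * g' * A.valuation W.a₄ ^ (2 * m)) := by
  rcases P with _ | ⟨x₁, y₁, h₁⟩
  · refine ⟨0, ?_⟩
    have hg : g = 1 := hP
    have : (Point.zero : W.Point) = 0 := rfl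
    rw [this, zero_add, hg]
    simpa using hQ
  rcases Q with _ | ⟨x₂, y₂, h₂⟩
  · refine ⟨0, ?_⟩
    have hg : g' = 1 := hQ
    have : (Point.zero : W.Point) = 0 := rfl
    rw [this, add_zero, hg]
    simpa using hP
  obtain ⟨h₁', hn₁⟩ := neg_some_eq D h₁
  obtain ⟨h₂', hn₂⟩ := neg_some_eq D h₂
  rw [comp_some_iff] at hP hQ
  rcases hP with ⟨hx₁, rfl⟩ | ⟨hx₁, rfl⟩ | ⟨hP₁, rfl⟩ | ⟨hP₁, rfl⟩
  · -- first point in the identity component
    rcases hQ with ⟨hx₂, rfl⟩ | ⟨hx₂, rfl⟩ | ⟨hP₂, rfl⟩ | ⟨hP₂, rfl⟩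
    · exact ⟨0, by simpa using comp_add_EE D h₁ h₂ hx₁ hx₂⟩
    · exact absurd hx₂ hQT
    · exact ⟨0, by simpa using comp_add_EP D h₁ h₂ hx₁ hP₂⟩
    · have := comp_add_EP D h₁' h₂' hx₁ (midPlus_neg hP₂)
      rw [← hn₁, ← hn₂] at this
      obtain ⟨m, hm⟩ := comp_of_neg_add_neg D this
      exact ⟨m, by simpa using hm⟩
  · exact absurd hx₁ hPT
  · -- first point on the plus branch
    rcases hQ with ⟨hx₂, rfl⟩ | ⟨hx₂, rfl⟩ | ⟨hP₂, rfl⟩ | ⟨hP₂, rfl⟩
    · have := comp_add_EP D h₂ h₁ hx₂ hP₁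
      rw [add_comm] at this
      exact ⟨0, by simpa using this⟩
    · exact absurd hx₂ hQT
    · exact comp_add_PP D h₁ h₂ hP₁ hP₂
    · exact ⟨0, by simpa using comp_add_PM D h₁ h₂ hP₁ hP₂⟩
  · -- first point on the minus branch
    rcases hQ with ⟨hx₂, rfl⟩ | ⟨hx₂, rfl⟩ | ⟨hP₂, rfl⟩ | ⟨hP₂, rfl⟩
    · have := comp_add_EP D h₂' h₁' hx₂ (midPlus_neg hP₁)
      rw [← hn₁, ← hn₂, add_comm] at this
      obtain ⟨m, hm⟩ := comp_of_neg_add_neg D this
      exact ⟨m, by simpa using hm⟩
    · exact absurd hx₂ hQT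
    · have := comp_add_PM D h₂ h₁ hP₂ hP₁
      rw [add_comm] at this
      exact ⟨0, by simpa [mul_comm] using this⟩
    · obtain ⟨m, hm⟩ := comp_add_PP D h₁' h₂' (midPlus_neg hP₁) (midPlus_neg hP₂)
      rw [← hn₁, ← hn₂] at hm
      obtain ⟨m', hm'⟩ := comp_of_neg_add_neg D hm
      refine ⟨m' - m, ?_⟩
      have hβ := D.beta_ne_zero
      have e : (A.valuation x₁ * A.valuation x₂ * A.valuation W.a₄ ^ (2 * m))⁻¹ *
          A.valuation W.a₄ ^ (2 * m') =
          (A.valuation x₁)⁻¹ * (A.valuation x₂)⁻¹ * A.valuation W.a₄ ^ (2 * (m' - m)) := by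
        rw [mul_sub, zpow_sub₀ hβ]
        simp only [mul_inv]
        field_simp
      rwa [e] at hm'

/-- adding `(0,0)` repeatedly -/
theorem comp_add_nsmul_zeroZero (D : MultData A W γ) {S : W.Point} {h : A.ValueGroup}
    (hS : Comp A γ S h) (n : ℕ) :
    ∃ m : ℤ, Comp A γ (S + n • Point.some 0 0 D.nonsingular_zeroZero)
      (h * A.valuation W.a₄ ^ (2 * m + n)) := by
  induction n with
  | zero => exact ⟨0, by simpa using hS⟩
  | succ n ih =>
    obtain ⟨m, hm⟩ := ih
    obtain ⟨m', hm'⟩ := comp_add_zeroZero D D.nonsingular_zeroZero hm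
    refine ⟨m + m', ?_⟩
    have hβ := D.beta_ne_zero
    have e1 : S + (n + 1) • Point.some 0 0 D.nonsingular_zeroZero =
        S + n • Point.some 0 0 D.nonsingular_zeroZero + Point.some 0 0 D.nonsingular_zeroZero := by
      rw [succ_nsmul, add_assoc]
    have e2 : h * A.valuation W.a₄ ^ (2 * m + (n : ℤ)) * A.valuation W.a₄ ^ (2 * m' + 1) =
        h * A.valuation W.a₄ ^ (2 * (m + m') + ((n + 1 : ℕ) : ℤ)) := by
      rw [mul_assoc, ← zpow_add₀ hβ]
      congr 2
      push_cast
      ring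
    rw [e1, ← e2]
    exact hm'

/-- every point is a point off the component of `(0,0)` plus a multiple of `(0,0)` -/
theorem comp_decomp (D : MultData A W γ) {P : W.Point} {g : A.ValueGroup}
    (hP : Comp A γ P g) :
    ∃ (P₀ : W.Point) (g₀ : A.ValueGroup) (k : ℕ),
      P = P₀ + k • Point.some 0 0 D.nonsingular_zeroZero ∧ Comp A γ P₀ g₀ ∧ ¬IsT A P₀ ∧
        g = g₀ * A.valuation W.a₄ ^ k := by
  by_cases hT : IsT A P
  · rcases P with _ | ⟨x, y, h⟩
    · exact absurd hT (by simp [IsT])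
    have hx : A.valuation x ≤ A.valuation W.a₄ := hT
    have hg : g = A.valuation W.a₄ := by
      rw [comp_some_iff] at hP
      rcases hP with ⟨h1, _⟩ | ⟨_, rfl⟩ | ⟨⟨h1, _, _⟩, _⟩ | ⟨⟨h1, _, _⟩, _⟩
      · exact absurd (lt_of_le_of_lt (le_trans h1 hx) D.hb) (lt_irrefl _)
      · rfl
      · exact absurd (lt_of_lt_of_le h1 hx) (lt_irrefl _)
      · exact absurd (lt_of_lt_of_le h1 hx) (lt_irrefl _)
    have hTT : Point.some 0 0 D.nonsingular_zeroZero + Point.some 0 0 D.nonsingular_zeroZero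
        = 0 := by
      apply Point.add_of_Y_eq rfl
      rw [D.negY, neg_zero]
    refine ⟨Point.some x y h + Point.some 0 0 D.nonsingular_zeroZero, 1, 1, ?_, ?_, ?_, ?_⟩
    · rw [one_nsmul, add_assoc, hTT, add_zero]
    · by_cases hx0 : x = 0
      · subst hx0
        have hy : y = 0 := by
          have := h.1
          rw [Affine.equation_iff, D.model.a₁, D.model.a₃, D.model.a₆] at this
          have : y ^ 2 = 0 := by linear_combination this
          exact pow_eq_zero_iff (two_ne_zero) |>.mp this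
        subst hy
        rw [hTT]
        rfl
      · obtain ⟨h', he⟩ := add_zeroZero_formula D.model h hx0 D.nonsingular_zeroZero
        rw [he, comp_some_iff]
        left
        refine ⟨?_, rfl⟩
        rw [map_div₀]
        have hxv : A.valuation x ≠ 0 := (Valuation.ne_zero_iff _).mpr hx0
        rw [le_div_iff₀ (zero_lt_iff.mpr hxv), one_mul]
        exact hx
    · by_cases hx0 : x = 0
      · subst hx0
        have hy : y = 0 := by
          have := h.1
          rw [Affine.equation_iff, D.model.a₁, D.model.a₃, D.model.a₆] at this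
          have : y ^ 2 = 0 := by linear_combination this
          exact pow_eq_zero_iff (two_ne_zero) |>.mp this
        subst hy
        rw [hTT]
        exact fun h => h
      · obtain ⟨h', he⟩ := add_zeroZero_formula D.model h hx0 D.nonsingular_zeroZero
        rw [he]
        show ¬ (A.valuation (W.a₄ / x) ≤ A.valuation W.a₄)
        rw [map_div₀, not_le]
        have hxv : A.valuation x ≠ 0 := (Valuation.ne_zero_iff _).mpr hx0
        rw [lt_div_iff₀ (zero_lt_iff.mpr hxv)]
        calc A.valuation W.a₄ * A.valuation x ≤ A.valuation W.a₄ * A.valuation W.a₄ :=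
              mul_le_mul_right hx _
          _ < A.valuation W.a₄ * 1 := by
              apply mul_lt_mul_of_pos_left D.hb (zero_lt_iff.mpr D.beta_ne_zero)
          _ = A.valuation W.a₄ := mul_one _
    · rw [hg, one_mul, pow_one]
  · exact ⟨P, g, 0, by simp, hP, hT, by simp⟩

/-- The component value is additive modulo even powers of `v(a₄)`. -/
theorem comp_add (D : MultData A W γ) {P Q : W.Point} {g g' : A.ValueGroup}
    (hP : Comp A γ P g) (hQ : Comp A γ Q g') :
    ∃ m : ℤ, Comp A γ (P + Q) (g * g' * A.valuation W.a₄ ^ (2 * m)) := by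
  obtain ⟨P₀, g₀, k, rfl, hP₀, hPT, rfl⟩ := comp_decomp D hP
  obtain ⟨Q₀, g₀', l, rfl, hQ₀, hQT, rfl⟩ := comp_decomp D hQ
  obtain ⟨m, hm⟩ := comp_add_core D hP₀ hQ₀ hPT hQT
  obtain ⟨m', hm'⟩ := comp_add_nsmul_zeroZero D hm (k + l)
  refine ⟨m + m', ?_⟩
  have hβ := D.beta_ne_zero
  have e1 : P₀ + k • Point.some 0 0 D.nonsingular_zeroZero +
      (Q₀ + l • Point.some 0 0 D.nonsingular_zeroZero) =
      P₀ + Q₀ + (k + l) • Point.some 0 0 D.nonsingular_zeroZero := by
    rw [add_nsmul]; abel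
  have e2 : g₀ * g₀' * A.valuation W.a₄ ^ (2 * m) *
      A.valuation W.a₄ ^ (2 * m' + ((k + l : ℕ) : ℤ)) =
      g₀ * A.valuation W.a₄ ^ k * (g₀' * A.valuation W.a₄ ^ l) *
        A.valuation W.a₄ ^ (2 * (m + m')) := by
    rw [← zpow_natCast, ← zpow_natCast]
    have : g₀ * A.valuation W.a₄ ^ (k : ℤ) * (g₀' * A.valuation W.a₄ ^ (l : ℤ)) *
        A.valuation W.a₄ ^ (2 * (m + m')) =
        g₀ * g₀' * (A.valuation W.a₄ ^ (k : ℤ) * A.valuation W.a₄ ^ (l : ℤ) *
        A.valuation W.a₄ ^ (2 * (m + m'))) := by ac_rfl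
    rw [this, ← zpow_add₀ hβ, ← zpow_add₀ hβ, mul_assoc, ← zpow_add₀ hβ]
    congr 2
    push_cast
    ring
  rw [e1, ← e2]
  exact hm'

theorem comp_nsmul (D : MultData A W γ) {P : W.Point} {g : A.ValueGroup}
    (hP : Comp A γ P g) (n : ℕ) :
    ∃ m : ℤ, Comp A γ (n • P) (g ^ n * A.valuation W.a₄ ^ (2 * m)) := by
  induction n with
  | zero => exact ⟨0, by simp [comp_zero_iff]⟩
  | succ n ih =>
    obtain ⟨m, hm⟩ := ih
    obtain ⟨m', hm'⟩ := comp_add D hm hP
    refine ⟨m + m', ?_⟩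
    have hβ := D.beta_ne_zero
    have e2 : g ^ n * A.valuation W.a₄ ^ (2 * m) * g * A.valuation W.a₄ ^ (2 * m') =
        g ^ (n + 1) * A.valuation W.a₄ ^ (2 * (m + m')) := by
      rw [mul_add, zpow_add₀ hβ, pow_succ]
      ac_rfl
    rw [succ_nsmul, ← e2]
    exact hm'

theorem MultData.valuation_gamma (D : MultData A W γ) : A.valuation γ = 1 := by
  have h : A.valuation γ ^ 2 = 1 := by
    rw [← map_pow, D.hγ, D.ha]
  have h' : A.valuation γ ^ 2 = 1 ^ 2 := by rw [h, one_pow]
  exact (pow_left_inj two_ne_zero).mp h'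

theorem valuation_y_of_midPlus (D : MultData A W γ) {x y : K} (h : MidPlus A W γ x y) :
    A.valuation y = A.valuation x := by
  obtain ⟨_, _, h3⟩ := h
  have e : y = γ * x + (y - γ * x) := by ring
  have hγx : A.valuation (γ * x) = A.valuation x := by
    rw [map_mul, D.valuation_gamma, one_mul]
  rw [e, Valuation.map_add_eq_of_lt_left _ (by rw [hγx]; exact h3), hγx]

theorem valuation_y_of_midMinus (D : MultData A W γ) {x y : K} (h : MidMinus A W γ x y) :
    A.valuation y = A.valuation x := by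
  have := valuation_y_of_midPlus D (midPlus_neg h)
  rwa [Valuation.map_neg] at this

/-- Torsion points of odd prime order `p` off the identity component have `x`-coordinate of
valuation a power of `v(r)`, when `v(a₄) = v(r)^p`. -/
theorem valuation_x_of_torsion (D : MultData A W γ) {p : ℕ} (hp : p.Prime) (hp2 : p ≠ 2)
    {r : K} (hr : A.valuation W.a₄ = A.valuation r ^ p)
    {x y : K} (h : W.Nonsingular x y) (hP : p • Point.some x y h = 0) :
    1 ≤ A.valuation x ∨ (A.valuation W.a₄ < A.valuation x ∧ A.valuation x < 1 ∧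
      A.valuation y = A.valuation x ∧ ∃ j : ℕ, A.valuation x = A.valuation r ^ j) := by
  obtain ⟨g, hg, hg0⟩ := comp_total D (Point.some x y h)
  obtain ⟨m, hm⟩ := comp_nsmul D hg p
  rw [hP, comp_zero_iff] at hm
  have hβ := D.beta_ne_zero
  have hp0 : p ≠ 0 := hp.ne_zero
  have hρ0 : A.valuation r ≠ 0 := by
    intro h0
    rw [h0, zero_pow hp0] at hr
    exact hβ hr
  have hρ1 : A.valuation r < 1 := by
    have : A.valuation r ^ p < 1 := hr ▸ D.hb
    exact (pow_lt_one_iff hp0).mp this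
  have hβm : ∀ k : ℤ, A.valuation W.a₄ ^ k = (A.valuation r ^ k) ^ p := by
    intro k
    rw [hr, ← zpow_natCast (A.valuation r ^ k), ← zpow_mul, ← zpow_natCast, ← zpow_mul, mul_comm]
  rw [comp_some_iff] at hg
  rcases hg with ⟨h1, _⟩ | ⟨_, rfl⟩ | ⟨hM, rfl⟩ | ⟨hM, rfl⟩
  · exact Or.inl h1
  · exfalso
    rw [← zpow_natCast, ← zpow_add₀ hβ] at hm
    have h0 := (zpow_eq_one_iff_right₀ zero_le (ne_of_lt D.hb)).mp hm
    have : Even p := by
      have : (p : ℤ) = 2 * (-m) := by omega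
      have h2 : (2 : ℤ) ∣ p := ⟨-m, this⟩
      exact even_iff_two_dvd.mpr (by exact_mod_cast h2)
    exact hp2 ((Nat.Prime.even_iff hp).mp this)
  · right
    refine ⟨hM.1, hM.2.1, valuation_y_of_midPlus D hM, ?_⟩
    rw [hβm, ← mul_pow] at hm
    have h1 : A.valuation x * A.valuation r ^ (2 * m) = 1 := by
      have : (A.valuation x * A.valuation r ^ (2 * m)) ^ p = 1 ^ p := by rw [hm, one_pow]
      exact (pow_left_inj hp0).mp this
    have h2 : A.valuation x = A.valuation r ^ (-(2 * m)) := by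
      rw [zpow_neg]
      exact eq_inv_of_mul_eq_one_left h1
    have h3 : 0 < -(2 * m) := by
      have : A.valuation r ^ (-(2 * m)) < 1 := h2 ▸ hM.2.1
      exact (zpow_lt_one_iff_right_of_lt_one₀ (zero_lt_iff.mpr hρ0) hρ1).mp this
    refine ⟨(-(2 * m)).toNat, ?_⟩
    rw [h2, ← zpow_natCast, Int.toNat_of_nonneg h3.le]
  · right
    refine ⟨hM.1, hM.2.1, valuation_y_of_midMinus D hM, ?_⟩
    have hx0 : A.valuation x ≠ 0 := fun h0 => by
      have := hM.1
      rw [h0] at this
      exact absurd this (not_lt.mpr zero_le)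
    rw [hβm, inv_pow] at hm
    have h1 : (A.valuation r ^ (2 * m)) ^ p = A.valuation x ^ p := by
      have := congrArg (fun t => A.valuation x ^ p * t) hm
      simp only [mul_one] at this
      rw [← this, ← mul_assoc, mul_inv_cancel₀ (pow_ne_zero _ hx0), one_mul]
    have h2 : A.valuation x = A.valuation r ^ (2 * m) := ((pow_left_inj hp0).mp h1).symm
    have h3 : 0 < 2 * m := by
      have : A.valuation r ^ (2 * m) < 1 := h2 ▸ hM.2.1
      exact (zpow_lt_one_iff_right_of_lt_one₀ (zero_lt_iff.mpr hρ0) hρ1).mp this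
    refine ⟨(2 * m).toNat, ?_⟩
    rw [h2, ← zpow_natCast, Int.toNat_of_nonneg h3.le]

end Fermat.Agent.S05
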