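import Fermat.Agent.S05.Defs

set_option autoImplicit false

namespace Fermat.Agent.S05

open WeierstrassCurve WeierstrassCurve.Affine

variable {K : Type*} [Field K]

namespace Congruence

theorem not_mem_of_one_lt (A : ValuationSubring K) {z : K} (hz : 1 < A.valuation z) : z ∉ A :=
  fun h => absurd ((A.valuation_le_one_iff z).mpr h) (not_le.mpr hz)

theorem one_lt_of_mul_eq (A : ValuationSubring K) {d l n : K} (h : d * l = n)
    (hlt : A.valuation d < A.valuation n) : 1 < A.valuation l := by
  by_contra hcon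
  rw [not_lt] at hcon
  have h1 : A.valuation n = A.valuation d * A.valuation l := by rw [← h, map_mul]
  have h2 : A.valuation d * A.valuation l ≤ A.valuation d * 1 := mul_le_mul_right hcon _
  rw [mul_one, ← h1] at h2
  exact absurd h2 (not_le.mpr hlt)

theorem sq_sub_not_mem (A : ValuationSubring K) {l c : K} (hl : 1 < A.valuation l) (hc : c ∈ A) :
    l ^ 2 - c ∉ A := by
  apply not_mem_of_one_lt
  have hc1 : A.valuation c ≤ 1 := (A.valuation_le_one_iff c).mpr hc
  have hl2 : 1 < A.valuation (l ^ 2) := by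
    rw [map_pow]
    exact one_lt_pow₀ hl two_ne_zero
  rw [Valuation.map_sub_eq_of_lt_left _ (lt_of_le_of_lt hc1 hl2)]
  exact hl2

theorem mem_of_sq_mem (A : ValuationSubring K) {y : K} (hy : y ^ 2 ∈ A) : y ∈ A := by
  by_contra hcon
  have h1 : 1 < A.valuation y := by
    rw [← not_le]
    exact fun h => hcon ((A.valuation_le_one_iff y).mp h)
  have h2 : 1 < A.valuation (y ^ 2) := by
    rw [map_pow]
    exact one_lt_pow₀ h1 two_ne_zero
  exact not_mem_of_one_lt A h2 hy

theorem mem_of_sub_lt_one (A : ValuationSubring K) {x x' : K} (hx : x ∈ A)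
    (hxx : A.valuation (x' - x) < 1) : x' ∈ A := by
  have : x' = x + (x' - x) := by ring
  rw [this]
  exact A.add_mem _ _ hx ((A.valuation_le_one_iff _).mp hxx.le)

/-- a unit plus a non-unit is a unit -/
theorem val_eq_one_of_sub_lt_one (A : ValuationSubring K) {u u' : K} (hu : A.valuation u = 1)
    (huu : A.valuation (u' - u) < 1) : A.valuation u' = 1 := by
  have : u' = u + (u' - u) := by ring
  rw [this, Valuation.map_add_eq_of_lt_left _ (by rw [hu]; exact huu), hu]

theorem val_add_eq_one (A : ValuationSubring K) {u s : K} (hu : A.valuation u = 1)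
    (hs : A.valuation s < 1) : A.valuation (u + s) = 1 := by
  rw [Valuation.map_add_eq_of_lt_left _ (by rw [hu]; exact hs), hu]

theorem val_eq_one_of_sq (A : ValuationSubring K) {u : K} (hu : A.valuation (u ^ 2) = 1) :
    A.valuation u = 1 := by
  rw [map_pow] at hu
  exact (pow_left_inj₀ zero_le zero_le two_ne_zero).mp (by rw [hu, one_pow])

theorem lt_one_of_mem_of_ne_one (A : ValuationSubring K) {z : K} (hz : z ∈ A)
    (h1 : A.valuation z ≠ 1) : A.valuation z < 1 :=
  lt_of_le_of_ne ((A.valuation_le_one_iff z).mpr hz) h1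

theorem negY_eq {W : Affine K} (hW : IsTwoModel W) (x y : K) : W.negY x y = -y := by
  simp [negY, hW.a₁, hW.a₃]

theorem equation_eq {W : Affine K} (hW : IsTwoModel W) {x y : K} (h : W.Nonsingular x y) :
    y ^ 2 = x ^ 3 + W.a₂ * x ^ 2 + W.a₄ * x := by
  have := (equation_iff x y).mp h.1
  rw [hW.a₁, hW.a₃, hW.a₆] at this
  linear_combination this

variable [DecidableEq K]

theorem point_sub_eq_zero {W : Affine K} {x y x' y' : K} (h : W.Nonsingular x y)
    (h' : W.Nonsingular x' y') (hx : x' = x) (hy : y' = y) :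
    Point.some x' y' h' - Point.some x y h = 0 := by
  subst hx hy
  exact sub_self _

theorem nearZero_sub_of_X_ne {W : Affine K} (hW : IsTwoModel W) (A : ValuationSubring K)
    {x y x' y' : K} (h : W.Nonsingular x y) (h' : W.Nonsingular x' y') (hx : x' ≠ x)
    {l : K} (hl : (x' - x) * l = y' + y) (hl1 : 1 < A.valuation l)
    (hc : W.a₂ + x' + x ∈ A) :
    NearZero A (Point.some x' y' h' - Point.some x y h) := by
  rw [sub_eq_add_neg, Point.neg_some, Point.add_of_X_ne hx]
  change W.addX x' x (W.slope x' x y' (W.negY x y)) ∉ A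
  have hxx : x' - x ≠ 0 := sub_ne_zero.mpr hx
  have hs : W.slope x' x y' (W.negY x y) = l := by
    rw [slope_of_X_ne hx, negY_eq hW, div_eq_iff hxx]
    linear_combination -hl
  rw [hs, addX, hW.a₁]
  have : l ^ 2 + 0 * l - W.a₂ - x' - x = l ^ 2 - (W.a₂ + x' + x) := by ring
  rw [this]
  exact sq_sub_not_mem A hl1 hc

theorem nearZero_sub_of_X_eq {W : Affine K} (hW : IsTwoModel W) (A : ValuationSubring K)
    {x y y' : K} (h : W.Nonsingular x y) (h' : W.Nonsingular x y') (hy : y' ≠ y)
    {l : K} (hl : (2 * y') * l = 3 * x ^ 2 + 2 * W.a₂ * x + W.a₄) (hl1 : 1 < A.valuation l)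
    (h2 : (2 : K) ≠ 0) (hy0 : y' ≠ 0)
    (hc : W.a₂ + x + x ∈ A) :
    NearZero A (Point.some x y' h' - Point.some x y h) := by
  have hne : y' ≠ W.negY x (W.negY x y) := by rw [negY_negY]; exact hy
  rw [sub_eq_add_neg, Point.neg_some, Point.add_of_Y_ne hne]
  change W.addX x x (W.slope x x y' (W.negY x y)) ∉ A
  have hyy : 2 * y' ≠ 0 := mul_ne_zero h2 hy0
  have hs : W.slope x x y' (W.negY x y) = l := by
    rw [slope_of_Y_ne rfl hne, negY_eq hW, hW.a₁,
      div_eq_iff (by rw [sub_neg_eq_add, ← two_mul]; exact hyy)]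
    linear_combination -hl
  rw [hs, addX, hW.a₁]
  have : l ^ 2 + 0 * l - W.a₂ - x - x = l ^ 2 - (W.a₂ + x + x) := by ring
  rw [this]
  exact sq_sub_not_mem A hl1 hc

omit [DecidableEq K] in
/-- The derivative of the cubic is a unit at a point reducing to a nonsingular point with
`y` in the maximal ideal. -/
theorem val_deriv_eq_one {W : Affine K} (hW : IsTwoModel W) (A : ValuationSubring K)
    (ha : W.a₂ ∈ A) (h2 : A.valuation (2 : K) = 1)
    (hdisc : A.valuation (W.a₂ ^ 2 - 4 * W.a₄) = 1)
    {x y : K} (h : W.Nonsingular x y) (hx : x ∈ A)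
    (hns : A.valuation x = 1 ∨ A.valuation W.a₄ = 1) (hvy : A.valuation y < 1) :
    A.valuation (3 * x ^ 2 + 2 * W.a₂ * x + W.a₄) = 1 := by
  have e1 := equation_eq hW h
  have h3 : (3 : K) ∈ A := by
    have : (3 : K) = 1 + 1 + 1 := by norm_num
    rw [this]
    exact A.add_mem _ _ (A.add_mem _ _ A.one_mem A.one_mem) A.one_mem
  have h2m : (2 : K) ∈ A := (A.valuation_le_one_iff _).mp h2.le
  by_cases hx1 : A.valuation x = 1
  · have hg : A.valuation (x ^ 2 + W.a₂ * x + W.a₄) < 1 := by
      have e : x * (x ^ 2 + W.a₂ * x + W.a₄) = y ^ 2 := by rw [e1]; ring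
      have hvv : A.valuation x * A.valuation (x ^ 2 + W.a₂ * x + W.a₄) = A.valuation y ^ 2 := by
        rw [← map_mul, e, map_pow]
      rw [hx1, one_mul] at hvv
      rw [hvv]
      exact pow_lt_one₀ zero_le hvy two_ne_zero
    have h4 : A.valuation (4 : K) = 1 := by
      have : (4 : K) = 2 * 2 := by norm_num
      rw [this, map_mul, h2, one_mul]
    have hsq : A.valuation ((2 * x + W.a₂) ^ 2) = 1 := by
      have e : (2 * x + W.a₂) ^ 2
          = (W.a₂ ^ 2 - 4 * W.a₄) + 4 * (x ^ 2 + W.a₂ * x + W.a₄) := by ring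
      rw [e]
      apply val_add_eq_one A hdisc
      rw [map_mul, h4, one_mul]
      exact hg
    have hu : A.valuation (2 * x + W.a₂) = 1 := val_eq_one_of_sq A hsq
    have e : 3 * x ^ 2 + 2 * W.a₂ * x + W.a₄
        = x * (2 * x + W.a₂) + (x ^ 2 + W.a₂ * x + W.a₄) := by ring
    rw [e]
    apply val_add_eq_one A _ hg
    rw [map_mul, hx1, hu, one_mul]
  · have hxlt : A.valuation x < 1 := lt_one_of_mem_of_ne_one A hx hx1
    have hb1 : A.valuation W.a₄ = 1 := hns.resolve_left hx1
    have e : 3 * x ^ 2 + 2 * W.a₂ * x + W.a₄ = W.a₄ + x * (3 * x + 2 * W.a₂) := by ring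
    rw [e]
    apply val_add_eq_one A hb1
    rw [map_mul]
    have hm : 3 * x + 2 * W.a₂ ∈ A :=
      A.add_mem _ _ (A.mul_mem _ _ h3 hx) (A.mul_mem _ _ h2m ha)
    calc A.valuation x * A.valuation (3 * x + 2 * W.a₂)
        ≤ A.valuation x * 1 := mul_le_mul_right ((A.valuation_le_one_iff _).mpr hm) _
      _ = A.valuation x := mul_one _
      _ < 1 := hxlt

end Congruence

open Congruence

variable [DecidableEq K]

theorem nearZero_sub_of_congr {W : Affine K} (hW : IsTwoModel W) (A : ValuationSubring K)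
    (ha : W.a₂ ∈ A) (hb : W.a₄ ∈ A) (h2 : A.valuation (2 : K) = 1)
    (hdisc : A.valuation (W.a₂ ^ 2 - 4 * W.a₄) = 1)
    {x y x' y' : K} (h : W.Nonsingular x y) (h' : W.Nonsingular x' y')
    (hx : x ∈ A) (hxx : A.valuation (x' - x) < 1) (hyy : A.valuation (y' - y) < 1)
    (hns : A.valuation x = 1 ∨ A.valuation W.a₄ = 1) :
    NearZero A (Point.some x' y' h' - Point.some x y h) := by
  have e1 := equation_eq hW h
  have e1' := equation_eq hW h'
  have h20 : (2 : K) ≠ 0 := by
    intro h0
    rw [h0, map_zero] at h2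
    exact zero_ne_one h2
  have hx' : x' ∈ A := mem_of_sub_lt_one A hx hxx
  have hy : y ∈ A := mem_of_sq_mem A (by
    rw [e1]
    exact A.add_mem _ _ (A.add_mem _ _ (pow_mem hx 3) (A.mul_mem _ _ ha (pow_mem hx 2)))
      (A.mul_mem _ _ hb hx))
  have hD := val_deriv_eq_one hW A ha h2 hdisc h hx hns
  by_cases hxe : x' = x
  · subst hxe
    by_cases hye : y' = y
    · rw [point_sub_eq_zero h h' rfl hye]
      exact nearZero_zero A
    · have hneg : y' = -y := by
        have hm : (y' - y) * (y' + y) = 0 := by linear_combination e1' - e1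
        rcases mul_eq_zero.mp hm with h0 | h0
        · exact absurd (sub_eq_zero.mp h0) hye
        · exact eq_neg_of_add_eq_zero_left h0
      have hy0 : y' ≠ 0 := by
        intro h0
        apply hye
        rw [h0] at hneg ⊢
        have : y = 0 := by simpa using hneg.symm
        rw [this]
      have hvy : A.valuation y < 1 := by
        have e : y' - y = -(2 * y) := by rw [hneg]; ring
        rw [e, Valuation.map_neg, map_mul, h2, one_mul] at hyy
        exact hyy
      have h2y : 2 * y' ≠ 0 := mul_ne_zero h20 hy0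
      have hl : (2 * y') * ((3 * x' ^ 2 + 2 * W.a₂ * x' + W.a₄) / (2 * y'))
          = 3 * x' ^ 2 + 2 * W.a₂ * x' + W.a₄ := by field_simp
      refine nearZero_sub_of_X_eq hW A h h' hye hl ?_ h20 hy0 (A.add_mem _ _ (A.add_mem _ _ ha hx) hx)
      apply one_lt_of_mul_eq A hl
      rw [hD hvy, map_mul, h2, one_mul, hneg, Valuation.map_neg]
      exact hvy
  · have hxx0 : x' - x ≠ 0 := sub_ne_zero.mpr hxe
    have hl : (x' - x) * ((y' + y) / (x' - x)) = y' + y := by field_simp
    refine nearZero_sub_of_X_ne hW A h h' hxe hl ?_ (A.add_mem _ _ (A.add_mem _ _ ha hx') hx)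
    by_cases hvy : A.valuation y = 1
    · apply one_lt_of_mul_eq A hl
      have e : y' + y = 2 * y + (y' - y) := by ring
      have h2y : A.valuation (2 * y) = 1 := by rw [map_mul, h2, hvy, one_mul]
      rw [e, val_add_eq_one A h2y hyy]
      exact hxx
    · have hvy' : A.valuation y < 1 := lt_one_of_mem_of_ne_one A hy hvy
      -- second slope formula
      have hN : (y' - y) * ((y' + y) / (x' - x))
          = x' ^ 2 + x' * x + x ^ 2 + W.a₂ * (x' + x) + W.a₄ := by
        field_simp
        linear_combination e1' - e1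
      apply one_lt_of_mul_eq A hN
      have hN1 : A.valuation (x' ^ 2 + x' * x + x ^ 2 + W.a₂ * (x' + x) + W.a₄) = 1 := by
        apply val_eq_one_of_sub_lt_one A (hD hvy')
        have e : x' ^ 2 + x' * x + x ^ 2 + W.a₂ * (x' + x) + W.a₄
            - (3 * x ^ 2 + 2 * W.a₂ * x + W.a₄) = (x' - x) * (x' + 2 * x + W.a₂) := by ring
        rw [e, map_mul]
        have h2m : (2 : K) ∈ A := (A.valuation_le_one_iff _).mp h2.le
        have hm : x' + 2 * x + W.a₂ ∈ A :=
          A.add_mem _ _ (A.add_mem _ _ hx' (A.mul_mem _ _ h2m hx)) ha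
        calc A.valuation (x' - x) * A.valuation (x' + 2 * x + W.a₂)
            ≤ A.valuation (x' - x) * 1 := mul_le_mul_right ((A.valuation_le_one_iff _).mpr hm) _
          _ = A.valuation (x' - x) := mul_one _
          _ < 1 := hxx
      rw [hN1]
      exact hyy

theorem nearZero_sub_of_ratio {W : Affine K} (hW : IsTwoModel W) (A : ValuationSubring K)
    (ha : A.valuation W.a₂ = 1) (h2 : A.valuation (2 : K) = 1)
    {x y x' y' : K} (h : W.Nonsingular x y) (h' : W.Nonsingular x' y')
    (hx1 : A.valuation x < 1) (hxb : A.valuation W.a₄ < A.valuation x)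
    (hxx : A.valuation (x' - x) < A.valuation x) (hyy : A.valuation (y' - y) < A.valuation y) :
    NearZero A (Point.some x' y' h' - Point.some x y h) := by
  have e1 := equation_eq hW h
  have e1' := equation_eq hW h'
  have h20 : (2 : K) ≠ 0 := by
    intro h0
    rw [h0, map_zero] at h2
    exact zero_ne_one h2
  have hvx0 : 0 < A.valuation x := lt_of_le_of_lt zero_le hxb
  have hvx2 : 0 < A.valuation x ^ 2 := sq_pos_of_pos hvx0
  -- v y = v x
  have hvyx : A.valuation y = A.valuation x := by
    apply (pow_left_inj₀ zero_le zero_le two_ne_zero).mp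
    rw [← map_pow, e1]
    have e : x ^ 3 + W.a₂ * x ^ 2 + W.a₄ * x = W.a₂ * x ^ 2 + (x ^ 3 + W.a₄ * x) := by ring
    have hmain : A.valuation (W.a₂ * x ^ 2) = A.valuation x ^ 2 := by
      rw [map_mul, ha, one_mul, map_pow]
    have hsmall : A.valuation (x ^ 3 + W.a₄ * x) < A.valuation x ^ 2 := by
      apply Valuation.map_add_lt
      · rw [map_pow, pow_succ]
        calc A.valuation x ^ 2 * A.valuation x < A.valuation x ^ 2 * 1 :=
              (mul_lt_mul_iff_of_pos_left hvx2).mpr hx1
          _ = A.valuation x ^ 2 := mul_one _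
      · rw [map_mul, pow_two]
        exact MulPosStrictMono.mul_lt_mul_of_pos_right hvx0 hxb
    rw [e, Valuation.map_add_eq_of_lt_left _ (by rw [hmain]; exact hsmall), hmain]
  have hxA : x ∈ A := (A.valuation_le_one_iff _).mp hx1.le
  have hx'A : x' ∈ A := mem_of_sub_lt_one A hxA (hxx.trans hx1)
  have haA : W.a₂ ∈ A := (A.valuation_le_one_iff _).mp ha.le
  have h2y : A.valuation (2 * y) = A.valuation y := by rw [map_mul, h2, one_mul]
  by_cases hxe : x' = x
  · subst hxe
    have hye : y' = y := by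
      by_contra hye
      have hneg : y' = -y := by
        have hm : (y' - y) * (y' + y) = 0 := by linear_combination e1' - e1
        rcases mul_eq_zero.mp hm with h0 | h0
        · exact absurd (sub_eq_zero.mp h0) hye
        · exact eq_neg_of_add_eq_zero_left h0
      have e : y' - y = -(2 * y) := by rw [hneg]; ring
      rw [e, Valuation.map_neg, h2y] at hyy
      exact lt_irrefl _ hyy
    rw [point_sub_eq_zero h h' rfl hye]
    exact nearZero_zero A
  · have hxx0 : x' - x ≠ 0 := sub_ne_zero.mpr hxe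
    have hl : (x' - x) * ((y' + y) / (x' - x)) = y' + y := by field_simp
    refine nearZero_sub_of_X_ne hW A h h' hxe hl ?_ (A.add_mem _ _ (A.add_mem _ _ haA hx'A) hxA)
    apply one_lt_of_mul_eq A hl
    have e : y' + y = 2 * y + (y' - y) := by ring
    rw [e, Valuation.map_add_eq_of_lt_left _ (by rw [h2y]; exact hyy), h2y, hvyx]
    exact hxx

end Fermat.Agent.S05
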