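import Mathlib

set_option autoImplicit false

/-!
Common definitions for the S05 development: the model curve `Y² = X³ + a₂ X² + a₄ X`
over a field `K` with a valuation subring `A`, and the kernel of reduction.
-/

namespace Fermat.Agent.S05

open WeierstrassCurve WeierstrassCurve.Affine

variable {K : Type*} [Field K]

/-- The Weierstrass curve has the shape `Y² = X³ + a₂ X² + a₄ X`. -/
structure IsTwoModel (W : WeierstrassCurve K) : Prop where
  a₁ : W.a₁ = 0
  a₃ : W.a₃ = 0
  a₆ : W.a₆ = 0

/-- The kernel of reduction with respect to the valuation subring `A`: the point at infinity
together with the affine points whose `x`-coordinate is not in `A`. -/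
def NearZero (A : ValuationSubring K) {W : Affine K} : W.Point → Prop
  | .zero => True
  | .some x _ _ => x ∉ A

@[simp] theorem nearZero_zero (A : ValuationSubring K) {W : Affine K} :
    NearZero A (0 : W.Point) := trivial

@[simp] theorem nearZero_some (A : ValuationSubring K) {W : Affine K} {x y : K}
    (h : W.Nonsingular x y) : NearZero A (Point.some x y h) ↔ x ∉ A := Iff.rfl

end Fermat.Agent.S05
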