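import Fermat.Agent.S05.Component
import Fermat.Agent.S05.Congruence
import Fermat.Agent.S05.KernelOfReduction

set_option autoImplicit false
set_option linter.unusedSectionVars false

/-!
Fixed points of "inertia-like" automorphisms on torsion of the model curve.
-/

namespace Fermat.Agent.S05

open WeierstrassCurve WeierstrassCurve.Affine

variable {K : Type*} [Field K] [DecidableEq K]

theorem y_mem_of_x_mem {W : Affine K} (hW : IsTwoModel W) (A : ValuationSubring K)
    (ha : W.a₂ ∈ A) (hb : W.a₄ ∈ A) {x y : K} (h : W.Nonsingular x y) (hx : x ∈ A) : y ∈ A := by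
  have he := h.1
  rw [Affine.equation_iff, hW.a₁, hW.a₃, hW.a₆] at he
  have h2 : y ^ 2 = x ^ 3 + W.a₂ * x ^ 2 + W.a₄ * x := by linear_combination he
  have h3 : y ^ 2 ∈ A := by
    rw [h2]
    exact A.add_mem _ _ (A.add_mem _ _ (pow_mem hx 3) (A.mul_mem _ _ ha (pow_mem hx 2)))
      (A.mul_mem _ _ hb hx)
  rw [← A.valuation_le_one_iff] at h3 ⊢
  rw [map_pow] at h3
  exact (pow_le_one_iff_of_nonneg zero_le (two_ne_zero)).mp h3

variable [Algebra ℚ K]

theorem map_eq_self_of_nearZero_sub {W' : Affine ℚ} (hW : IsTwoModel (W'⁄K))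
    (A : ValuationSubring K) (f : K →ₐ[ℚ] K) (ha : (W'⁄K).a₂ ∈ A) (hb : (W'⁄K).a₄ ∈ A)
    {n : ℕ} (hn : A.valuation (n : K) = 1) {P : (W'⁄K).Point} (hP : n • P = 0)
    (hQ : NearZero A (Point.map (W' := W') f P - P)) : Point.map (W' := W') f P = P := by
  have h1 : n • (Point.map (W' := W') f P - P) = 0 := by
    rw [smul_sub, ← map_nsmul, hP, map_zero, sub_zero]
  have := eq_zero_of_nearZero_of_nsmul_eq_zero hW A ha hb hn hQ h1
  exact sub_eq_zero.mp this

theorem map_eq_self_of_good {W' : Affine ℚ} (hW : IsTwoModel (W'⁄K))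
    (A : ValuationSubring K) (f : K →ₐ[ℚ] K) (hf : ∀ x ∈ A, A.valuation (f x - x) < 1)
    (ha : (W'⁄K).a₂ ∈ A) (hb : A.valuation (W'⁄K).a₄ = 1) (h2 : A.valuation (2 : K) = 1)
    (hdisc : A.valuation ((W'⁄K).a₂ ^ 2 - 4 * (W'⁄K).a₄) = 1)
    {n : ℕ} (hn : A.valuation (n : K) = 1) {P : (W'⁄K).Point} (hP : n • P = 0) :
    Point.map (W' := W') f P = P := by
  have hb' : (W'⁄K).a₄ ∈ A := by
    rw [← A.valuation_le_one_iff, hb]
  apply map_eq_self_of_nearZero_sub hW A f ha hb' hn hP
  rcases P with _ | ⟨x, y, h⟩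
  · exact trivial
  · by_cases hx : x ∈ A
    · rw [Point.map_some]
      have hy := y_mem_of_x_mem hW A ha hb' h hx
      exact nearZero_sub_of_congr hW A ha hb' h2 hdisc h _ hx (hf x hx) (hf y hy) (Or.inr hb)
    · exfalso
      have hN : NearZero A (Point.some x y h) := hx
      have := eq_zero_of_nearZero_of_nsmul_eq_zero hW A ha hb' hn hN hP
      exact Point.some_ne_zero h this

/-- if `v(t) = v(c)` with `c` fixed by `f`, then `v(f t - t) < v(t)` -/
theorem valuation_map_sub_lt {A : ValuationSubring K} (f : K →ₐ[ℚ] K)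
    (hf : ∀ x ∈ A, A.valuation (f x - x) < 1) {t c : K} (hc : f c = c) (hc0 : c ≠ 0)
    (ht : A.valuation t = A.valuation c) : A.valuation (f t - t) < A.valuation t := by
  have hξ : t / c ∈ A := by
    rw [← A.valuation_le_one_iff, map_div₀, ht, div_self ((Valuation.ne_zero_iff _).mpr hc0)]
  have h1 := hf _ hξ
  have h2 : f t - t = c * (f (t / c) - t / c) := by
    rw [map_div₀, hc]
    field_simp
  rw [h2, map_mul, ht]
  calc A.valuation c * A.valuation (f (t / c) - t / c) < A.valuation c * 1 :=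
        mul_lt_mul_of_pos_left h1 (zero_lt_iff.mpr ((Valuation.ne_zero_iff _).mpr hc0))
    _ = A.valuation c := mul_one _

theorem map_eq_self_of_mult {W' : Affine ℚ} (A : ValuationSubring K) (f : K →ₐ[ℚ] K)
    (hf : ∀ x ∈ A, A.valuation (f x - x) < 1) {γ : K} (D : MultData A (W'⁄K) γ)
    {p : ℕ} (hp : p.Prime) (hp2 : p ≠ 2) (hpA : A.valuation (p : K) = 1)
    {r : ℚ} (hr : A.valuation (W'⁄K).a₄ = A.valuation (algebraMap ℚ K r) ^ p)
    {P : (W'⁄K).Point} (hP : p • P = 0) : Point.map (W' := W') f P = P := by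
  have ha : (W'⁄K).a₂ ∈ A := by
    rw [← A.valuation_le_one_iff, D.ha]
  have hb : (W'⁄K).a₄ ∈ A := by
    rw [← A.valuation_le_one_iff]
    exact D.hb.le
  have hdisc : A.valuation ((W'⁄K).a₂ ^ 2 - 4 * (W'⁄K).a₄) = 1 := by
    have h4 : A.valuation (4 : K) = 1 := by
      have : (4 : K) = 2 * 2 := by norm_num
      rw [this, map_mul, D.h2, one_mul]
    have h1 : A.valuation ((W'⁄K).a₂ ^ 2) = 1 := by rw [map_pow, D.ha, one_pow]
    have h3 : A.valuation (4 * (W'⁄K).a₄) < 1 := by
      rw [map_mul, h4, one_mul]; exact D.hb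
    rw [Valuation.map_sub_eq_of_lt_left _ (by rw [h1]; exact h3), h1]
  apply map_eq_self_of_nearZero_sub D.model A f ha hb hpA hP
  rcases P with _ | ⟨x, y, h⟩
  · exact trivial
  · rw [Point.map_some]
    have hr0 : algebraMap ℚ K r ≠ 0 := by
      intro h0
      rw [h0, map_zero, zero_pow hp.ne_zero] at hr
      exact D.beta_ne_zero hr
    rcases valuation_x_of_torsion D hp hp2 hr h hP with h1 | ⟨hxb, hx1, hyx, j, hj⟩
    · by_cases hx : x ∈ A
      · have hy := y_mem_of_x_mem D.model A ha hb h hx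
        have hx1 : A.valuation x = 1 := le_antisymm ((A.valuation_le_one_iff _).mpr hx) h1
        exact nearZero_sub_of_congr D.model A ha hb D.h2 hdisc h _ hx (hf x hx) (hf y hy)
          (Or.inl hx1)
      · exfalso
        have hN : NearZero A (Point.some x y h) := hx
        have := eq_zero_of_nearZero_of_nsmul_eq_zero D.model A ha hb hpA hN hP
        exact Point.some_ne_zero h this
    · have hc : f (algebraMap ℚ K r ^ j) = algebraMap ℚ K r ^ j := by
        rw [map_pow, AlgHom.commutes]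
      have hc0 : algebraMap ℚ K r ^ j ≠ 0 := pow_ne_zero _ hr0
      have hxc : A.valuation x = A.valuation (algebraMap ℚ K r ^ j) := by rw [hj, map_pow]
      have hxx := valuation_map_sub_lt f hf hc hc0 hxc
      have hyy := valuation_map_sub_lt f hf hc hc0 (hyx.trans hxc)
      exact nearZero_sub_of_ratio D.model A D.ha D.h2 h _ hx1 hxb hxx hyy

end Fermat.Agent.S05
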